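import Fermat.Agent.ModLift.Modules.Geometry

/-!
# Congruent bases of the two modules of a level

Bases of the two modules which agree modulo the maximal ideal of `O` and lift given bases of the
modules without auxiliary primes turn the two actions into congruent matrices over the group ring.
-/

set_option autoImplicit false
set_option linter.unusedSectionVars false
set_option linter.style.haveILetI false

noncomputable section

set_option synthInstance.maxHeartbeats 400000
set_option maxHeartbeats 1000000

open IsLocalRing

namespace FLTAgent.ModLift.Tower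

open FLTAgent.Lowering

variable {p : ℕ} [Fact p.Prime] {O : Type} [CommRing O] [IsDomain O]
  [IsDiscreteValuationRing O]

section Generic

variable {A : Type} [CommRing A] [Algebra O A]
  {P : Type} [AddCommGroup P] [Module A P] [Module O P] [IsScalarTower O A P]
  {Q : Type} [AddCommGroup Q] [Module A Q] [Module O Q] [IsScalarTower O A Q]

local notation "mk" => Submodule.Quotient.mk

/-- Lifts along a congruence of a spanning family span. -/
theorem span_of_congr {ι : Type} [Module.Finite O Q]
    (e : (P ⧸ (maximalIdeal O • ⊤ : Submodule O P)) ≃ₗ[O] Q ⧸ (maximalIdeal O • ⊤ : Submodule O Q))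
    (he : ∀ (a : A) x y, e (mk x) = mk y → e (mk (a • x)) = mk (a • y))
    (u : ι → P) (hu : Submodule.span A (Set.range u) = ⊤) (v : ι → Q)
    (hv : ∀ i, e (mk (u i)) = mk (v i)) : Submodule.span A (Set.range v) = ⊤ := by
  rw [← Submodule.restrictScalars_eq_top_iff O]
  refine top_le_iff.mp (Submodule.le_of_le_smul_of_le_jacobson_bot (I := maximalIdeal O)
    Module.Finite.fg_top (maximalIdeal_le_jacobson _) ?_)
  intro y _
  obtain ⟨x, hx⟩ := Submodule.Quotient.mk_surjective (maximalIdeal O • ⊤ : Submodule O P)
    (e.symm (mk y))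
  have key : ∀ x : P, ∃ y' ∈ Submodule.span A (Set.range v), e (mk x) = mk y' := by
    intro x
    have : x ∈ Submodule.span A (Set.range u) := hu ▸ Submodule.mem_top
    induction this using Submodule.span_induction with
    | mem z hz => obtain ⟨i, rfl⟩ := hz; exact ⟨v i, Submodule.subset_span ⟨i, rfl⟩, hv i⟩
    | zero => exact ⟨0, zero_mem _, map_zero e⟩
    | add z w _ _ hz hw =>
      obtain ⟨a, ha, ea⟩ := hz; obtain ⟨b, hb, eb⟩ := hw
      exact ⟨a + b, add_mem ha hb, by
        rw [Submodule.Quotient.mk_add, map_add, ea, eb, Submodule.Quotient.mk_add]⟩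
    | smul a z _ hz =>
      obtain ⟨b, hb, eb⟩ := hz
      exact ⟨a • b, Submodule.smul_mem _ a hb, he a z b eb⟩
  obtain ⟨y', hy', e'⟩ := key x
  rw [hx, LinearEquiv.apply_symm_apply, Submodule.Quotient.eq] at e'
  exact Submodule.mem_sup.2 ⟨y', hy', _, e', add_sub_cancel y' y⟩

/-- Lifts along a congruence of a basis form a basis. -/
theorem exists_congr_basis [Nontrivial A] [Module.Finite O P] [Module.Finite O Q]
    [Module.Free A Q] [Module.Finite A Q]
    (e : (P ⧸ (maximalIdeal O • ⊤ : Submodule O P)) ≃ₗ[O] Q ⧸ (maximalIdeal O • ⊤ : Submodule O Q))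
    (he : ∀ (a : A) x y, e (mk x) = mk y → e (mk (a • x)) = mk (a • y))
    {d : ℕ} (bf : Module.Basis (Fin d) A P) (v : Fin d → Q)
    (hv : ∀ i, e (mk (bf i)) = mk (v i)) :
    ∃ bt : Module.Basis (Fin d) A Q, ∀ i, bt i = v i := by
  classical
  have hvt : Submodule.span A (Set.range v) = ⊤ := span_of_congr e he bf bf.span_eq v hv
  let ct := Module.Free.chooseBasis A Q
  have hcard : Fintype.card (Module.Free.ChooseBasisIndex A Q) = d := by
    refine le_antisymm ?_ ?_
    · rw [← Module.finrank_eq_card_chooseBasisIndex]
      calc Module.finrank A Q = Module.finrank A (⊤ : Submodule A Q) := (finrank_top _ _).symm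
        _ = Module.finrank A (Submodule.span A (Set.range v)) := by rw [hvt]
        _ ≤ d := (finrank_range_le_card _).trans_eq (Fintype.card_fin d)
    · have hback : ∀ y : Q, ∃ x : P, e.symm (mk y) = mk x := fun y =>
        ⟨_, (Submodule.Quotient.mk_surjective _ _).choose_spec.symm⟩
      choose back hback using hback
      have hsp := span_of_congr e.symm (fun a x y h => by
        rw [LinearEquiv.symm_apply_eq] at h ⊢
        exact (he a y x h.symm).symm) ct ct.span_eq (fun i => back (ct i)) fun i => hback _
      haveI := Module.Free.of_basis bf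
      calc d = Module.finrank A P := by
            rw [Module.finrank_eq_card_basis bf, Fintype.card_fin]
        _ = Module.finrank A (⊤ : Submodule A P) := (finrank_top _ _).symm
        _ = Module.finrank A (Submodule.span A (Set.range fun i => back (ct i))) := by rw [hsp]
        _ ≤ _ := finrank_range_le_card _
  let ct' := ct.reindex (Fintype.equivFinOfCardEq hcard)
  let g : Q →ₗ[A] Q := ct'.constr A v
  have hg : Function.Surjective g := by
    rw [← LinearMap.range_eq_top, Module.Basis.constr_range, hvt]
  refine ⟨ct'.map (LinearEquiv.ofBijective g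
    ⟨OrzechProperty.injective_of_surjective_endomorphism g hg, hg⟩), fun i => ?_⟩
  rw [Module.Basis.map_apply]
  exact ct'.constr_basis A _ i

theorem repr_mem_map_of_mem {d : ℕ} (b : Module.Basis (Fin d) A Q) {y : Q}
    (hy : y ∈ (maximalIdeal O • ⊤ : Submodule O Q)) (i : Fin d) :
    b.repr y i ∈ (maximalIdeal O).map (algebraMap O A) := by
  refine Submodule.smul_induction_on hy (fun a ha m _ => ?_) (fun m n hm hn => ?_)
  · rw [← algebraMap_smul A, map_smul, Finsupp.smul_apply, smul_eq_mul]
    exact Ideal.mul_mem_right _ _ (Ideal.mem_map_of_mem _ ha)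
  · rw [map_add, Finsupp.add_apply]
    exact add_mem hm hn

end Generic

variable [Algebra ℤ_[p] O] [Module.Finite ℤ_[p] O] [CharZero O] {S : Setup p O}

local notation "mk" => Submodule.Quotient.mk

theorem finite_mod (X : Aux S) (e : Bool) : Module.Finite O (X.Mod e) := X.finite_mod_base e

theorem free_mod (X : Aux S) (e : Bool) : Module.Free O (X.Mod e) :=
  haveI := (X.mod_finite_free e).2
  Module.Free.trans (S := X.Coef)

/-- Bases of the two modules without auxiliary primes, congruent. -/
theorem exists_base_bases (S : Setup p O) :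
    ∃ (d : ℕ) (b0 : ∀ e, Module.Basis (Fin d) O ((Aux.empty S).Mod e)), 0 < d ∧
      ∀ i, (Aux.empty S).congrEquiv (mk (b0 false i)) = mk (b0 true i) := by
  haveI := finite_mod (Aux.empty S) false; haveI := finite_mod (Aux.empty S) true
  haveI := free_mod (Aux.empty S) false; haveI := free_mod (Aux.empty S) true
  haveI := Aux.nontrivial_mod_empty S
  let bf := Module.finBasis O ((Aux.empty S).Mod false)
  have hlift : ∀ x : (Aux.empty S).Mod false, ∃ y : (Aux.empty S).Mod true,
      (Aux.empty S).congrEquiv (mk x) = mk y := fun x =>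
    ⟨_, (Submodule.Quotient.mk_surjective _ _).choose_spec.symm⟩
  choose lift hlift using hlift
  obtain ⟨bt, hbt⟩ := exists_congr_basis (A := O) (Aux.empty S).congrEquiv
    (fun a x y h => by
      rw [Submodule.Quotient.mk_smul, map_smul, h, Submodule.Quotient.mk_smul])
    bf (fun i => lift (bf i)) fun i => hlift _
  refine ⟨_, fun e => match e with | false => bf | true => bt, Module.finrank_pos, fun i => ?_⟩
  show _ = mk (bt i)
  rw [hbt]
  exact hlift _

/-- The matrices of an action in a basis. -/
def matHom (X : Aux S) (e : Bool) {d : ℕ} (b : Module.Basis (Fin d) X.Coef (X.Mod e)) :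
    X.TR →ₐ[O] Matrix (Fin d) (Fin d) X.Coef :=
  ((LinearMap.toMatrixAlgEquiv b).toAlgHom.restrictScalars O).comp (X.actTR e)

theorem matHom_apply (X : Aux S) (e : Bool) {d : ℕ} (b : Module.Basis (Fin d) X.Coef (X.Mod e))
    (t : X.TR) (i j : Fin d) : matHom X e b t i j = b.repr (X.actTR e t (b j)) i := by
  simp [matHom, LinearMap.toMatrixAlgEquiv_apply]

/-- Congruent bases lifting those without auxiliary primes. -/
theorem exists_bases (X : Aux S) {d : ℕ}
    (b0 : ∀ e, Module.Basis (Fin d) O ((Aux.empty S).Mod e))
    (hb0 : ∀ i, (Aux.empty S).congrEquiv (mk (b0 false i)) = mk (b0 true i)) :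
    ∃ bs : ∀ e, Module.Basis (Fin d) X.Coef (X.Mod e),
      (∀ e i, X.coinv e (bs e i) = b0 e i) ∧
      ∀ i, X.congrEquiv (mk (bs false i)) = mk (bs true i) := by
  classical
  haveI := (X.mod_finite_free false).1; haveI := (X.mod_finite_free false).2
  haveI := (X.mod_finite_free true).1; haveI := (X.mod_finite_free true).2
  haveI := finite_mod X false; haveI := finite_mod X true
  have hsmul : ∀ e (a : X.Coef) x, X.coinv e (a • x) = X.aug a • X.coinv e x := fun e a x =>
    X.coinv_smul e a x
  -- the untwisted module
  let ι := Module.Free.ChooseBasisIndex X.Coef (X.Mod false)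
  let c := Module.Free.chooseBasis X.Coef (X.Mod false)
  have hspan : ⊤ ≤ Submodule.span O (Set.range fun i => X.coinv false (c i)) := by
    intro y _
    obtain ⟨x, rfl⟩ := X.coinv_surjective false y
    rw [← c.sum_repr x, map_sum]
    exact Submodule.sum_mem _ fun i _ => by
      rw [hsmul]; exact Submodule.smul_mem _ _ (Submodule.subset_span ⟨i, rfl⟩)
  have hli : LinearIndependent O fun i => X.coinv false (c i) := by
    rw [Fintype.linearIndependent_iff]
    intro g hg i
    have h1 : X.coinv false (∑ i, algebraMap O X.Coef (g i) • c i) = 0 := by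
      rw [map_sum, ← hg]
      exact Finset.sum_congr rfl fun i _ => by rw [algebraMap_smul, map_smul]
    have h2 : ∀ y ∈ (RingHom.ker X.aug • ⊤ : Submodule X.Coef (X.Mod false)), ∀ i,
        c.repr y i ∈ RingHom.ker X.aug := by
      intro y hy i
      refine Submodule.smul_induction_on hy (fun a ha m _ => ?_) (fun m n hm hn => ?_)
      · rw [map_smul, Finsupp.smul_apply, smul_eq_mul]
        exact Ideal.mul_mem_right _ _ ha
      · rw [map_add, Finsupp.add_apply]; exact add_mem hm hn
    have h3 := h2 _ ((X.coinv_eq_zero_iff false _).1 h1) i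
    rw [c.repr_sum_self, RingHom.mem_ker, AlgHom.commutes] at h3
    simpa using h3
  let b' := Module.Basis.mk hli hspan
  let idx : ι ≃ Fin d := b'.indexEquiv (b0 false)
  let c' := c.reindex idx
  let b'' := b'.reindex idx
  let M : Matrix (Fin d) (Fin d) X.Coef := (b''.toMatrix (b0 false)).map (algebraMap O X.Coef)
  have hM : IsUnit M := by
    haveI := b''.invertibleToMatrix (b0 false)
    exact (isUnit_of_invertible _).map (algebraMap O X.Coef).mapMatrix
  let v : Fin d → X.Mod false := fun j => ∑ i, M i j • c' i
  have hvmat : c'.toMatrix v = M := by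
    ext i j
    rw [Module.Basis.toMatrix_apply, c'.repr_sum_self]
  have hv := (Module.Basis.is_basis_iff_det c' (v := v)).2 (by
    rw [Module.Basis.det_apply, hvmat]
    exact (Matrix.isUnit_iff_isUnit_det M).1 hM)
  let bf := Module.Basis.mk hv.1 hv.2.ge
  have hbf : ∀ j, X.coinv false (bf j) = b0 false j := fun j => by
    rw [Module.Basis.mk_apply, map_sum]
    conv_rhs => rw [← b''.sum_repr (b0 false j)]
    refine Finset.sum_congr rfl fun i _ => ?_
    rw [hsmul, show M i j = algebraMap O X.Coef (b''.toMatrix (b0 false) i j) from rfl,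
      AlgHom.commutes]
    simp [b'', c', b', Module.Basis.toMatrix_apply]
  -- the twisted module: a lift, corrected by a multiple of the maximal ideal
  have hlift : ∀ x : X.Mod false, ∃ y : X.Mod true, X.congrEquiv (mk x) = mk y := fun x =>
    ⟨_, (Submodule.Quotient.mk_surjective _ _).choose_spec.symm⟩
  choose lift hlift using hlift
  have hcor : ∀ i, ∃ δ ∈ (maximalIdeal O • ⊤ : Submodule O (X.Mod true)),
      X.coinv true δ = b0 true i - X.coinv true (lift (bf i)) := fun i => by
    have h1 := X.coinv_congrEquiv _ _ (hlift (bf i))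
    rw [hbf, hb0, Submodule.Quotient.eq] at h1
    have h2 : (maximalIdeal O • ⊤ : Submodule O ((Aux.empty S).Mod true)) =
        Submodule.map (X.coinv true) (maximalIdeal O • ⊤) := by
      rw [Submodule.map_smul'', Submodule.map_top,
        LinearMap.range_eq_top.2 (X.coinv_surjective true)]
    rw [h2] at h1
    obtain ⟨δ, hδ, e⟩ := h1
    exact ⟨δ, hδ, e⟩
  choose δ hδ hδe using hcor
  have hv2 : ∀ i, X.congrEquiv (mk (bf i)) = mk (lift (bf i) + δ i) := fun i => by
    rw [Submodule.Quotient.mk_add, (Submodule.Quotient.mk_eq_zero _).2 (hδ i), add_zero]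
    exact hlift _
  obtain ⟨bt, hbt⟩ := exists_congr_basis (A := X.Coef) X.congrEquiv
    (fun a x y h => X.congrEquiv_smul a x y h) bf (fun i => lift (bf i) + δ i) hv2
  refine ⟨fun e => match e with | false => bf | true => bt, fun e i => ?_, fun i => ?_⟩
  · cases e
    · exact hbf i
    · show X.coinv true (bt i) = _
      rw [hbt, map_add, hδe, add_sub_cancel]
  · show _ = mk (bt i)
    rw [hbt]
    exact hv2 i

/-- The two matrices of an element agree modulo the maximal ideal of `O`. -/
theorem matHom_congr (X : Aux S) {d : ℕ} (bs : ∀ e, Module.Basis (Fin d) X.Coef (X.Mod e))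
    (hbs : ∀ i, X.congrEquiv (mk (bs false i)) = mk (bs true i)) (t : X.TR) (i j : Fin d) :
    matHom X false (bs false) t i j - matHom X true (bs true) t i j ∈
      (maximalIdeal O).map (algebraMap O X.Coef) := by
  rw [matHom_apply, matHom_apply]
  have hsum : ∀ x : X.Mod false, X.congrEquiv (mk x) =
      mk (∑ k, (bs false).repr x k • bs true k) := fun x => by
    conv_lhs => rw [← (bs false).sum_repr x]
    rw [← Submodule.mkQ_apply, map_sum, map_sum, ← Submodule.mkQ_apply, map_sum]
    exact Finset.sum_congr rfl fun k _ => X.congrEquiv_smul _ _ _ (hbs k)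
  have h1 := X.congrEquiv_act t _ _ (hbs j)
  rw [hsum, Submodule.Quotient.eq] at h1
  have h2 := repr_mem_map_of_mem (O := O) (bs true) h1 i
  rwa [map_sub, Finsupp.sub_apply, (bs true).repr_sum_self] at h2

/-- The augmentation of the matrix of an element is its matrix without auxiliary primes. -/
theorem aug_matHom (X : Aux S) {d : ℕ} (e : Bool) (b : Module.Basis (Fin d) X.Coef (X.Mod e))
    (b0 : Module.Basis (Fin d) O ((Aux.empty S).Mod e)) (hb : ∀ i, X.coinv e (b i) = b0 i)
    (t : X.TR) (i j : Fin d) :
    X.aug (matHom X e b t i j) =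
      b0.repr ((Aux.empty S).actTR e (X.resTR t) (b0 j)) i := by
  rw [matHom_apply, ← hb, ← X.coinv_actTR]
  generalize X.actTR e t (b j) = y
  conv_rhs => rw [← b.sum_repr y, map_sum]
  simp_rw [X.coinv_smul, hb]
  rw [b0.repr_sum_self]

end FLTAgent.ModLift.Tower
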