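import Fermat.Agent.ModLift.Modules.Ordinary
import Fermat.Agent.ModLift.Modules.Geometry
import Fermat.Agent.ModLift.Tangent.LevelInterface

/-!
# The representation of a level as a lift of the residual one

Conjugated, the representation of a level reduces exactly to the residual representation; two
representations with the same traces over a local algebra are conjugate.
-/

set_option autoImplicit false
set_option linter.unusedSectionVars false
set_option linter.style.haveILetI false

noncomputable section

set_option synthInstance.maxHeartbeats 400000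
set_option maxHeartbeats 1000000

open IsLocalRing

namespace FLTAgent.ModLift.Tower

open FLTAgent.Lowering FLTAgent.Deformation
open FLTAgent.TWPrimes (Datum)

local notation "LL" => AlgebraicClosure ℚ
local notation "GG" => (AlgebraicClosure ℚ ≃ₐ[ℚ] AlgebraicClosure ℚ)
local notation "M2" => Matrix (Fin 2) (Fin 2)

variable {p : ℕ} [Fact p.Prime] {O : Type} [CommRing O] [IsDomain O] [IsDiscreteValuationRing O]
  [Algebra ℤ_[p] O] [Module.Finite ℤ_[p] O] [CharZero O] {S : Setup p O}

section Generic

variable {R : Type} [CommRing R]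

theorem trace_conj (P g : GL (Fin 2) R) :
    Matrix.trace ((P * g * P⁻¹ : GL (Fin 2) R) : M2 R) = Matrix.trace (g : M2 R) := by
  rw [Units.val_mul, Units.val_mul, Matrix.trace_mul_cycle, ← Units.val_mul, inv_mul_cancel,
    Units.val_one, one_mul]

theorem det_conj (P g : GL (Fin 2) R) :
    Matrix.det ((P * g * P⁻¹ : GL (Fin 2) R) : M2 R) = Matrix.det (g : M2 R) := by
  rw [Units.val_mul, Units.val_mul]
  exact Matrix.det_units_conj P (g : M2 R)

/-- Congruence to one is kept by conjugation. -/
theorem conj_sub_one_mem (I : Ideal R) (P g : GL (Fin 2) R)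
    (h : ∀ i j, (g : M2 R) i j - (1 : M2 R) i j ∈ I) (i j : Fin 2) :
    ((P * g * P⁻¹ : GL (Fin 2) R) : M2 R) i j - (1 : M2 R) i j ∈ I := by
  let f := (Ideal.Quotient.mk I).mapMatrix (m := Fin 2)
  have hg : f (g : M2 R) = 1 := by
    rw [← map_one f]
    exact Matrix.ext fun i j => Ideal.Quotient.eq.2 (h i j)
  have e : f ((P * g * P⁻¹ : GL (Fin 2) R) : M2 R) = f 1 := by
    rw [Units.val_mul, Units.val_mul, map_mul, map_mul, hg, mul_one, ← map_mul, Units.mul_inv]
  exact Ideal.Quotient.eq.1 (congrFun (congrFun e i) j)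

/-- The representation pushed along a ring map. -/
def pushRep {R' : Type} [CommRing R'] (π : R' →+* R) (ρ : GG →* GL (Fin 2) R') : GG →* M2 R :=
  π.mapMatrix.toMonoidHom.comp ((Units.coeHom _).comp ρ)

end Generic

/-- The representation of a level, over its algebra of twisted traces. -/
def repTR (X : Aux S) : GG →* GL (Fin 2) X.TR := (X.levelData X.geometry).ρ

/-- The residual value on the algebra of twisted traces. -/
def redR (X : Aux S) : X.TR →ₐ[O] ResidueField O := (X.levelData X.geometry).red

theorem redR_trace (X : Aux S) (σ : GG) : redR X (trGL (repTR X σ)) = trGL (S.rb σ) :=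
  (X.levelData X.geometry).residual σ

/-- A representation conjugate to that of a level, reducing to the residual one. -/
theorem exists_lift (X : Aux S) :
    ∃ P : GL (Fin 2) X.TR, ∀ σ, ((P * repTR X σ * P⁻¹ : GL (Fin 2) X.TR) :
      M2 X.TR).map (redR X) = (S.rb σ : M2 (ResidueField O)) := by
  classical
  haveI := X.isLocalRing_TR
  let red : X.TR →ₐ[O] ResidueField O := redR X
  let ρ : GG →* GL (Fin 2) X.TR := repTR X
  obtain ⟨-, P, hP, hPeq⟩ := exists_residual_conj (R := X.TR) red ((Units.coeHom _).comp S.rb)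
    S.span_rb ((Units.coeHom _).comp ρ) (redR_trace X)
  choose Q hQ using fun i j => red_surj (R := X.TR) red (P i j)
  have hPQ : red.toRingHom.mapMatrix (Matrix.of Q) = P := by ext i j; exact hQ i j
  have hQu : IsUnit (Matrix.of Q : M2 X.TR) := by
    rw [Matrix.isUnit_iff_isUnit_det, ← IsLocalRing.notMem_maximalIdeal, ← red_eq_zero red,
      show red (Matrix.of Q).det = P.det by rw [← hPQ]; exact red.toRingHom.map_det _]
    exact ((Matrix.isUnit_iff_isUnit_det P).1 hP).ne_zero
  refine ⟨hQu.unit⁻¹, fun σ => ?_⟩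
  show red.toRingHom.mapMatrix
    ((hQu.unit⁻¹ * ρ σ * hQu.unit⁻¹⁻¹ : GL (Fin 2) X.TR) : M2 X.TR) = _
  rw [inv_inv, Units.val_mul, Units.val_mul, hQu.unit_spec, map_mul, map_mul, hPQ, mul_assoc,
    show red.toRingHom.mapMatrix (ρ σ : M2 X.TR) * P = P * (S.rb σ : M2 (ResidueField O)) from
      (hPeq σ).symm, ← mul_assoc, ← hPQ, ← map_mul, hQu.val_inv_mul, map_one, one_mul]

/-- A representation with the traces of a level is conjugate to that of the level. -/
theorem exists_conj_of_traces (X : Aux S) {R' : Type} [CommRing R'] (π : R' →+* X.TR)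
    (ρ' : GG →* GL (Fin 2) R')
    (htr : ∀ σ, π (Matrix.trace (ρ' σ : M2 R')) = trGL (repTR X σ)) :
    ∃ P : GL (Fin 2) X.TR, ∀ σ, (ρ' σ : M2 R').map π =
      ((P * repTR X σ * P⁻¹ : GL (Fin 2) X.TR) : M2 X.TR) := by
  haveI := X.isLocalRing_TR
  let ρ : GG →* GL (Fin 2) X.TR := repTR X
  let red : X.TR →ₐ[O] ResidueField O := redR X
  obtain ⟨hspan, -⟩ := exists_residual_conj (R := X.TR) red ((Units.coeHom _).comp S.rb)
    S.span_rb ((Units.coeHom _).comp ρ) (redR_trace X)
  obtain ⟨P, hP, hPeq⟩ := exists_conj_of_trace_eq' ((Units.coeHom _).comp ρ) (pushRep π ρ') hspan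
    fun σ => by
      show Matrix.trace (ρ σ : M2 X.TR) = Matrix.trace ((ρ' σ : M2 R').map π)
      rw [show Matrix.trace ((ρ' σ : M2 R').map π) = π (Matrix.trace (ρ' σ : M2 R')) from
        (AddMonoidHom.map_trace π.toAddMonoidHom _).symm, htr]
  refine ⟨hP.unit, fun σ => ?_⟩
  show pushRep π ρ' σ = _
  rw [Units.val_mul, Units.val_mul, hP.unit_spec,
    show P * (ρ σ : M2 X.TR) = pushRep π ρ' σ * P from hPeq σ, mul_assoc, hP.mul_val_inv, mul_one]

/-- The representation of a level, reducing exactly to the residual one. -/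
def liftRep (X : Aux S) : GG →* GL (Fin 2) X.TR :=
  (MulAut.conj (exists_lift X).choose).toMonoidHom.comp (repTR X)

theorem liftRep_trace (X : Aux S) (σ : GG) :
    Matrix.trace (liftRep X σ : M2 X.TR) = trGL (repTR X σ) :=
  trace_conj _ _

variable [Algebra (ZMod p) (ResidueField O)] {D : Datum p (ResidueField O)}
  {T : Finset Nat.Primes}

/-- The algebra of a level with a representation reducing to the residual one. -/
def levelRepOf (X : Aux S) (hrb : S.rb = D.rb)
    (hT : ∀ q : Nat.Primes, q ∉ T → (q : ℕ) ≠ p ∧ ¬ (q : ℕ) ∣ X.level) : LevelRep D T :=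
  haveI := X.isLocalRing_TR
  let L := X.levelData X.geometry
  let P : GL (Fin 2) X.TR := (exists_lift X).choose
  let ρ' : GG →* GL (Fin 2) X.TR := liftRep X
  { R := X.TR
    finite_R := X.finite_TR
    red := redR X
    ρ := ρ'
    red_rho := fun σ => ((exists_lift X).choose_spec σ).trans (by rw [hrb])
    generated := by
      have e : (fun σ => Matrix.trace (ρ' σ : M2 X.TR)) = fun σ => trGL (repTR X σ) :=
        funext fun σ => trace_conj P _
      rw [e]
      exact L.generated
    det_cyclotomic := fun n σ c hc => by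
      rw [show Matrix.det (ρ' σ : M2 X.TR) = Matrix.det _ from det_conj P _]
      exact L.det_cyclotomic n σ c hc
    continuous := fun n => by
      obtain ⟨F, hF, h⟩ := L.continuous n
      exact ⟨F, hF, fun σ hσ => conj_sub_one_mem _ P _ (h σ hσ)⟩
    unramified := fun q hq V hV σ hσ => by
      show P * repTR X σ * P⁻¹ = 1
      rw [show repTR X σ = 1 from L.unramified q q.2 (hT q hq).1 (hT q hq).2 V hV σ hσ]
      rw [mul_one, mul_inv_cancel] }

theorem levelRepOf_trace (X : Aux S) (hrb : S.rb = D.rb)
    (hT : ∀ q : Nat.Primes, q ∉ T → (q : ℕ) ≠ p ∧ ¬ (q : ℕ) ∣ X.level) (σ : GG) :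
    Matrix.trace ((levelRepOf X hrb hT).ρ σ : M2 (levelRepOf X hrb hT).R) =
      trGL (repTR X σ) :=
  trace_conj _ _

end FLTAgent.ModLift.Tower
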