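import Fermat.Agent.ModLift.Lift.Tower.Mats.Chain
import Fermat.Agent.ModLift.Lift.Tower.Mats.Bases
import Fermat.Agent.ModLift.Lift.Tower.Mats.Rep

/-!
# The data of the chain without auxiliary primes

Congruent bases of the modules of every step, their commutative algebras of matrices and the
representation of the last step.
-/

set_option autoImplicit false
set_option linter.unusedSectionVars false
set_option linter.style.haveILetI false

noncomputable section

set_option synthInstance.maxHeartbeats 400000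
set_option maxHeartbeats 1000000

open IsLocalRing

namespace FLTAgent.ModLift

open FLTAgent.Lowering

local notation "LL" => AlgebraicClosure ℚ
local notation "GG" => (AlgebraicClosure ℚ ≃ₐ[ℚ] AlgebraicClosure ℚ)
local notation "M2" => Matrix (Fin 2) (Fin 2)

variable {p : ℕ} [Fact p.Prime] {O : Type} [CommRing O] [IsDomain O] [IsDiscreteValuationRing O]
  [Algebra ℤ_[p] O] [Module.Finite ℤ_[p] O] [CharZero O]

namespace Tower

variable {S : Setup p O}

/-- Endomorphisms over the coefficients as endomorphisms over `O`. -/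
def endO (X : Aux S) (e : Bool) : Module.End X.Coef (X.Mod e) →ₐ[O] Module.End O (X.Mod e) :=
  AlgHom.ofLinearMap
    { toFun := fun f => f.restrictScalars O
      map_add' := fun _ _ => rfl
      map_smul' := fun _ _ => rfl }
    rfl (fun _ _ => rfl)

/-- The matrices of a level without auxiliary primes, over `O`. -/
def baseMat {d : ℕ} (e : Bool) (b0 : Module.Basis (Fin d) O ((Aux.empty S).Mod e)) :
    (Aux.empty S).TR →ₐ[O] Matrix (Fin d) (Fin d) O :=
  (LinearMap.toMatrixAlgEquiv b0).toAlgHom.comp
    ((endO (Aux.empty S) e).comp ((Aux.empty S).actTR e))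

theorem baseMat_apply {d : ℕ} (e : Bool) (b0 : Module.Basis (Fin d) O ((Aux.empty S).Mod e))
    (t : (Aux.empty S).TR) (i j : Fin d) :
    baseMat e b0 t i j = b0.repr ((Aux.empty S).actTR e t (b0 j)) i :=
  LinearMap.toMatrixAlgEquiv_apply b0 _ i j

theorem baseMat_range_comm {d : ℕ} (e : Bool)
    (b0 : Module.Basis (Fin d) O ((Aux.empty S).Mod e)) :
    ∀ a ∈ (baseMat e b0).range, ∀ a' ∈ (baseMat e b0).range, a * a' = a' * a := by
  rintro _ ⟨x, rfl⟩ _ ⟨y, rfl⟩
  rw [AlgHom.toRingHom_eq_coe, RingHom.coe_coe, ← map_mul, ← map_mul, mul_comm]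

end Tower

variable {W : WeierstrassCurve ℤ} {hΔ : W.Δ ≠ 0} [Algebra (ZMod p) (ResidueField O)]

namespace Ctx

variable (c : Ctx W hΔ p O)

theorem setup_rb (j : Fin (c.m + 1)) : (c.setup j).rb = c.D.rb := c.S0_rb

theorem level_conds_empty (j : Fin (c.m + 1)) :
    ∀ q : Nat.Primes, q ∉ c.S → (q : ℕ) ≠ p ∧ ¬ (q : ℕ) ∣ (Aux.empty (c.setup j)).level := by
  intro q hq
  have hqb : (q : ℕ) ∉ c.S0.bad := fun h => hq (c.mem_S.2 h)
  refine ⟨fun h => hqb (h ▸ c.S0.p_mem), fun h => hqb ?_⟩
  simp only [Aux.level, Aux.empty, Finset.prod_empty, mul_one] at h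
  exact c.mem_bad_of_dvd (Nat.lt_succ_iff.1 j.2) q.2 h

/-- The rank after `j` steps. -/
def rank (j : Fin (c.m + 1)) : ℕ := (Tower.exists_base_bases (c.setup j)).choose

/-- The bases without auxiliary primes. -/
def baseBasis (j : Fin (c.m + 1)) :
    ∀ e, Module.Basis (Fin (c.rank j)) O ((Aux.empty (c.setup j)).Mod e) :=
  (Tower.exists_base_bases (c.setup j)).choose_spec.choose

theorem rank_pos (j : Fin (c.m + 1)) : 0 < c.rank j :=
  (Tower.exists_base_bases (c.setup j)).choose_spec.choose_spec.1

theorem baseBasis_congr (j : Fin (c.m + 1)) (i : Fin (c.rank j)) :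
    (Aux.empty (c.setup j)).congrEquiv (Submodule.Quotient.mk (c.baseBasis j false i)) =
      Submodule.Quotient.mk (c.baseBasis j true i) :=
  (Tower.exists_base_bases (c.setup j)).choose_spec.choose_spec.2 i

/-- What does not depend on the auxiliary primes. -/
def towerBase : Base c where
  d j _ := c.rank j
  d_pos j _ := c.rank_pos j
  d_eq _ := rfl
  expo := inertiaExp + ∑ j, c.rank j
  expo_le := Nat.le_add_right _ _
  A0 j e := (Tower.baseMat e (c.baseBasis j e)).range
  A0_comm j e := Tower.baseMat_range_comm e (c.baseBasis j e)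
  R0 := Tower.levelRepOf (Aux.empty (c.setup (Fin.last _))) (c.setup_rb _)
    (c.level_conds_empty _)
  mat := Tower.baseMat false (c.baseBasis (Fin.last _) false)
  mat_mem x := ⟨x, rfl⟩
  forms := by
    obtain ⟨f, hf⟩ := Aux.base_forms (Aux.geometry (Aux.empty (c.setup (Fin.last _))))
    refine ⟨⟨c.lev_ne_zero le_rfl⟩,
      ((LinearMap.toMatrixAlgEquiv (c.baseBasis (Fin.last _) false)).toAlgHom.comp
        (Tower.endO (Aux.empty (c.setup (Fin.last _))) false)).toRingHom.comp f,
      fun l hl hlM hlb V hV σ hσ => ?_⟩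
    show (LinearMap.toMatrixAlgEquiv (c.baseBasis (Fin.last _) false))
      (Tower.endO _ false (f _)) = _
    refine (congrArg (fun z => (LinearMap.toMatrixAlgEquiv (c.baseBasis (Fin.last _) false))
      (Tower.endO (Aux.empty (c.setup (Fin.last _))) false z)) (hf l hl hlM hlb V hV σ hσ)).trans ?_
    exact congrArg (Tower.baseMat false (c.baseBasis (Fin.last _) false))
      (Tower.levelRepOf_trace (Aux.empty (c.setup (Fin.last _))) (c.setup_rb _)
        (c.level_conds_empty _) σ).symm

theorem rank_le_expo (j : Fin (c.m + 1)) : c.rank j ≤ c.towerBase.expo :=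
  (Finset.single_le_sum (f := c.rank) (fun _ _ => Nat.zero_le _) (Finset.mem_univ j)).trans
    (Nat.le_add_left _ _)

end Ctx

end FLTAgent.ModLift
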