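import Fermat.Agent.ModLift.Lift.Tower.Interface
import Fermat.Agent.ModLift.Degen.Interface
import Fermat.Agent.Lowering.P1.Primes.Frobenius

/-!
# The chain of setups

The setups after `j` steps, the raises between consecutive ones, the auxiliary primes at every
step and the residual line at `p` when `p` divides the level.
-/

set_option autoImplicit false
set_option linter.unusedSectionVars false
set_option linter.style.haveILetI false

noncomputable section

open IsLocalRing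

namespace FLTAgent.ModLift

open FLTAgent.Lowering
open FLTAgent.TWPrimes (IsAux)

local notation "LL" => AlgebraicClosure ℚ
local notation "GG" => (AlgebraicClosure ℚ ≃ₐ[ℚ] AlgebraicClosure ℚ)
local notation "M2" => Matrix (Fin 2) (Fin 2)

variable {W : WeierstrassCurve ℤ} {hΔ : W.Δ ≠ 0} {p : ℕ} [Fact p.Prime] {O : Type} [CommRing O]
  [IsDomain O] [IsDiscreteValuationRing O] [Algebra ℤ_[p] O]
  [Algebra (ZMod p) (ResidueField O)]

namespace Ctx

variable (c : Ctx W hΔ p O)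

theorem lev_eq (j : ℕ) : c.lev j = c.S0.M0 * ∏ i ∈ Finset.range j, c.q i := rfl

theorem lev_dvd {i j : ℕ} (h : i ≤ j) : c.lev i ∣ c.lev j :=
  Nat.mul_dvd_mul_left _ (Finset.prod_dvd_prod_of_subset _ _ _ (Finset.range_mono h))

theorem lev_succ (j : ℕ) : c.lev (j + 1) = c.lev j * c.q j := by
  rw [lev, lev, Finset.prod_range_succ, mul_assoc]

theorem lev_ne_zero {j : ℕ} (h : j ≤ c.m) : c.lev j ≠ 0 :=
  Nat.mul_ne_zero (NeZero.ne _) (Finset.prod_ne_zero_iff.mpr fun i hi =>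
    (c.q_prime i ((Finset.mem_range.1 hi).trans_le h)).ne_zero)

theorem M0_dvd_lev (j : ℕ) : c.S0.M0 ∣ c.lev j := dvd_mul_right _ _

theorem lev_squarefree {j : ℕ} (h : j ≤ c.m) : Squarefree (c.lev j) :=
  c.sqfree.squarefree_of_dvd (c.lev_dvd h)

theorem mem_bad_of_dvd {j : ℕ} (h : j ≤ c.m) {l : ℕ} (hl : l.Prime) (hd : l ∣ c.lev j) :
    l ∈ c.S0.bad :=
  (c.bad_iff l hl).2 (Or.inr (Or.inr (Or.inr (hd.trans (c.lev_dvd h)))))

/-- The setup after `j` steps. -/
def setup (j : Fin (c.m + 1)) : Setup p O where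
  p_ne := c.S0.p_ne
  M0 := c.lev j
  M0_neZero := ⟨c.lev_ne_zero (Nat.lt_succ_iff.1 j.2)⟩
  M0_squarefree := c.lev_squarefree (Nat.lt_succ_iff.1 j.2)
  five_le := c.S0.five_le.trans
    (Nat.le_of_dvd (Nat.pos_of_ne_zero (c.lev_ne_zero (Nat.lt_succ_iff.1 j.2))) (c.M0_dvd_lev j))
  tors := c.S0.tors.imp id fun h a ha => h (ZMod.castHom (c.M0_dvd_lev j) (ZMod c.S0.M0) a) (by
    rw [← map_pow, ← map_sub, ← map_one (ZMod.castHom (c.M0_dvd_lev j) (ZMod c.S0.M0)), ← map_add,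
      ha, map_zero])
  T := c.S0.T
  T_prime t ht := ⟨(c.S0.T_prime t ht).1, (c.S0.T_prime t ht).2.1.trans (c.M0_dvd_lev j),
    (c.S0.T_prime t ht).2.2⟩
  bad := c.S0.bad
  bad_prime := c.S0.bad_prime
  p_mem := c.S0.p_mem
  two_mem := c.S0.two_mem
  three_mem := c.S0.three_mem
  level_mem _ hl hd := c.mem_bad_of_dvd (Nat.lt_succ_iff.1 j.2) hl hd
  rb := c.S0.rb
  rb_level := c.S0.rb_level
  rb_det := c.S0.rb_det
  rb_unramified := c.S0.rb_unramified
  rb_big := c.S0.rb_big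
  modular := by
    obtain ⟨_, θ, hθ⟩ := c.modular j (Nat.lt_succ_iff.1 j.2)
    exact ⟨θ, hθ⟩
  χ := c.S0.χ
  χ_pow := c.S0.χ_pow
  χ_ne := c.S0.χ_ne

/-- One step. -/
theorem raise (j : Fin c.m) : Raise (c.setup j.castSucc) (c.setup j.succ) (c.q j) where
  prime := c.q_prime j j.2
  not_dvd h := by
    have hsq : Squarefree (c.lev ((j : ℕ) + 1)) := c.lev_squarefree (Nat.succ_le_of_lt j.2)
    rw [lev_succ] at hsq
    exact (c.q_prime j j.2).not_isUnit (hsq _ (Nat.mul_dvd_mul_right h (c.q j)))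
  M0_eq := c.lev_succ j
  bad_eq := rfl
  rb_eq := rfl
  T_eq := rfl
  chi_eq _ _ _ := rfl

/-- The auxiliary primes as a set of naturals. -/
def natQ (Q : Finset Nat.Primes) : Finset ℕ := Q.image fun q : Nat.Primes => (q : ℕ)

theorem mem_natQ {Q : Finset Nat.Primes} {q : ℕ} :
    q ∈ natQ Q ↔ ∃ hq : q.Prime, (⟨q, hq⟩ : Nat.Primes) ∈ Q := by
  rw [natQ, Finset.mem_image]
  exact ⟨fun ⟨a, ha, e⟩ => ⟨e ▸ a.2, by subst e; exact ha⟩,
    fun ⟨hq, h⟩ => ⟨⟨q, hq⟩, h, rfl⟩⟩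

/-- The residual data of one auxiliary prime: an eigenvalue different from its inverse. -/
theorem exists_alpha {n : ℕ} {q : Nat.Primes} (hq : q ∉ c.S) (haux : IsAux c.D n q) :
    ∃ a : ResidueField O, a ^ 2 ≠ 1 ∧ ∀ V : ValuationSubring LL, V.LiesOverPrime (q : ℕ) →
      ∀ φ : GG, V.IsFrobeniusAt φ (q : ℕ) → a ^ 2 - trGL (c.S0.rb φ) * a + 1 = 0 := by
  obtain ⟨-, hdvd, hev⟩ := haux
  have hqb : (q : ℕ) ∉ c.S0.bad := fun h => hq (c.mem_S.2 h)
  have hqp : (q : ℕ) ≠ p := fun h => hqb (h ▸ c.S0.p_mem)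
  obtain ⟨V, hV⟩ := Frobenius.exists_liesOverPrime (q : ℕ) q.2
  obtain ⟨φ, hφ⟩ := Frobenius.exists_isFrobeniusAt V (q : ℕ) q.2 hV
  obtain ⟨a, b, hab, htr, hdet⟩ := hev V hV φ hφ
  have h1 : detGL (c.S0.rb φ) = 1 := by
    rw [c.S0.rb_det φ (q : ℕ) (DetCyclo.cycloExponent_frobenius (p := p) q.2 hqp hV hφ 1)]
    obtain ⟨w, hw⟩ := (dvd_pow_self p n.succ_ne_zero).trans hdvd
    have hq1 : (q : ℕ) = p * w + 1 := by have := q.2.one_le; omega
    rw [hq1, Nat.cast_add, Nat.cast_one, Nat.cast_mul,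
      show (p : ResidueField O) = 0 by
        rw [← map_natCast (residue O), residue_eq_zero_iff]; exact c.p_mem]
    rw [zero_mul, zero_add]
  rw [← c.S0_rb] at htr hdet
  refine ⟨a, fun h => hab ?_, fun W hW ψ hψ => ?_⟩
  · have hab1 : a * b = 1 := hdet.symm.trans h1
    calc a = a * (a * b) := by rw [hab1, mul_one]
      _ = b := by rw [← mul_assoc, ← sq, h, one_mul]
  · obtain ⟨g, hg⟩ := Lowering.P1.Primes.exists_conj_of_frobenius c.S0.rb q.2
      (fun U hU σ hσ => c.S0.rb_unramified _ q.2 hqb U hU σ hσ) hV hW hφ hψ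
    have e : trGL (c.S0.rb ψ) = trGL (c.S0.rb φ) := by
      rw [hg]
      show Matrix.trace ((c.S0.rb g * c.S0.rb φ * (c.S0.rb g)⁻¹ : GL (Fin 2) (ResidueField O)) :
        M2 (ResidueField O)) = _
      rw [Units.val_mul, Units.val_mul, Matrix.trace_mul_cycle, ← Units.val_mul, inv_mul_cancel,
        Units.val_one, one_mul]
    rw [e, show trGL (c.S0.rb φ) = a + b from htr]
    linear_combination (h1.symm.trans hdet)

/-- The auxiliary primes at a step. -/
def aux {n : ℕ} (Q : Finset Nat.Primes) (hQ : ∀ q ∈ Q, q ∉ c.S ∧ IsAux c.D n q)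
    (j : Fin (c.m + 1)) : Aux (c.setup j) where
  Q := natQ Q
  prime q hq := (mem_natQ.1 hq).choose
  notMem q hq h := (hQ _ (mem_natQ.1 hq).choose_spec).1 (c.mem_S.2 h)
  one_mod q hq := (dvd_pow_self p n.succ_ne_zero).trans (hQ _ (mem_natQ.1 hq).choose_spec).2.2.1
  α q := if h : q ∈ natQ Q then (c.exists_alpha (hQ _ (mem_natQ.1 h).choose_spec).1
    (hQ _ (mem_natQ.1 h).choose_spec).2).choose else 0
  α_sq q hq := by
    rw [dif_pos hq]
    exact (c.exists_alpha (hQ _ (mem_natQ.1 hq).choose_spec).1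
      (hQ _ (mem_natQ.1 hq).choose_spec).2).choose_spec.1
  α_root q hq V hV σ hσ := by
    rw [dif_pos hq]
    exact (c.exists_alpha (hQ _ (mem_natQ.1 hq).choose_spec).1
      (hQ _ (mem_natQ.1 hq).choose_spec).2).choose_spec.2 V hV σ hσ

variable {n : ℕ} (Q : Finset Nat.Primes) (hQ : ∀ q ∈ Q, q ∉ c.S ∧ IsAux c.D n q)

theorem up_aux (j : Fin c.m) : (c.raise j).up (c.aux Q hQ j.castSucc) = c.aux Q hQ j.succ := rfl

theorem aux_pow_dvd (j : Fin (c.m + 1)) : ∀ q ∈ (c.aux Q hQ j).Q, p ^ n ∣ q - 1 := fun _ hq =>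
  (pow_dvd_pow p n.le_succ).trans (hQ _ (mem_natQ.1 hq).choose_spec).2.2.1

theorem aux_card (j : Fin (c.m + 1)) : (c.aux Q hQ j).Q.card = Q.card :=
  Finset.card_image_of_injective _ fun _ _ h => Subtype.ext h

/-- `p` divides the discriminant when it divides some level. -/
theorem p_dvd_disc_lev {j : Fin (c.m + 1)} (h : p ∣ c.lev j) : (p : ℤ) ∣ W.Δ := by
  have hp : p.Prime := Fact.out
  rcases hp.dvd_mul.1 h with h | h
  · exact (c.at_p h).1
  · obtain ⟨i, hi, hpi⟩ := (Nat.Prime.prime hp).exists_mem_finset_dvd h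
    have him : i < c.m := (Finset.mem_range.1 hi).trans_le (Nat.lt_succ_iff.1 j.2)
    have e : p = c.q i := (Nat.prime_dvd_prime_iff_eq hp (c.q_prime i him)).1 hpi
    rw [e]
    exact (c.q_spec i him).1

/-- The residual line at `p` of a curve multiplicative there. -/
theorem exists_line (h : (p : ℤ) ∣ W.Δ) {V : ValuationSubring LL} (hV : V.LiesOverPrime p) :
    ∃ v : Fin 2 → ResidueField O, ∀ σ ∈ V.inertiaSubgroupIn ℚ, ∀ w,
      ∃ a : ResidueField O, (c.S0.rb σ : M2 (ResidueField O)).mulVec w = w + a • v := by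
  obtain ⟨ε, -, hcurve⟩ := c.curve.ordinary h
  have hord := (hcurve V hV).1
  let f : ℤ_[p] →+* ResidueField O := (residue O).comp (algebraMap ℤ_[p] O)
  let R : GG → M2 (ResidueField O) := fun σ => (c.S0.rb σ : M2 (ResidueField O))
  have hR : ∀ σ, R σ = f.mapMatrix (c.curve.r σ : M2 ℤ_[p]) := fun σ => by
    show (c.S0.rb σ : M2 (ResidueField O)) = _
    rw [c.S0_rb, c.rb_eq]
    rfl
  have hrel : ∀ σ ∈ V.inertiaSubgroupIn ℚ, ∀ τ ∈ V.inertiaSubgroupIn ℚ,
      (R σ - (R σ).det • 1) * (R τ - 1) = 0 := fun σ hσ τ hτ => by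
    have h1 := congrArg f.mapMatrix (hord σ hσ τ hτ)
    have e : ∀ d : ℤ_[p], f.mapMatrix (d • (1 : M2 ℤ_[p])) = f d • (1 : M2 (ResidueField O)) :=
      fun d => by
        ext a b
        by_cases hab : a = b
        · subst hab; simp
        · simp [hab]
    rw [map_mul, map_sub, map_sub, map_one, map_zero, e] at h1
    rw [hR, hR, ← RingHom.map_det]
    exact h1
  by_cases hall : ∀ σ ∈ V.inertiaSubgroupIn ℚ, R σ - (R σ).det • 1 = 0
  · -- every element is scalar, hence trivial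
    refine ⟨0, fun σ hσ w => ⟨0, ?_⟩⟩
    have h1 : R σ = (R σ).det • 1 := sub_eq_zero.1 (hall σ hσ)
    have h2 := congrArg Matrix.det h1
    rw [Matrix.det_smul, Matrix.det_one, mul_one, Fintype.card_fin] at h2
    have hne : (R σ).det ≠ 0 := ((Matrix.isUnit_iff_isUnit_det _).1 (c.S0.rb σ).isUnit).ne_zero
    have h3 : (R σ).det = 1 := mul_left_cancel₀ hne (by rw [mul_one, ← sq]; exact h2.symm)
    show (R σ).mulVec w = w + 0 • (0 : Fin 2 → ResidueField O)
    rw [h1, h3, one_smul, Matrix.one_mulVec, zero_smul, add_zero]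
  push Not at hall
  obtain ⟨σ₀, hσ₀, hA⟩ := hall
  set A := R σ₀ - (R σ₀).det • 1 with hAdef
  have hlow : ∃ u : Fin 2 → ResidueField O, A.mulVec u ≠ 0 := by
    by_contra hno
    push Not at hno
    exact hA (Matrix.ext_iff_mulVec.2 fun u => by rw [hno u, Matrix.zero_mulVec])
  have hker : Module.finrank (ResidueField O) (LinearMap.ker A.mulVecLin) ≤ 1 := by
    have h1 := LinearMap.finrank_range_add_finrank_ker A.mulVecLin
    have h2 : 1 ≤ Module.finrank (ResidueField O) (LinearMap.range A.mulVecLin) := by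
      obtain ⟨u, hu⟩ := hlow
      refine Submodule.one_le_finrank_iff.2 ?_
      exact (Submodule.ne_bot_iff _).2 ⟨_, ⟨u, rfl⟩, hu⟩
    rw [Module.finrank_fin_fun] at h1
    omega
  obtain ⟨v, hv⟩ : ∃ v : Fin 2 → ResidueField O, ∀ x ∈ LinearMap.ker A.mulVecLin,
      ∃ a : ResidueField O, x = a • v := by
    rcases eq_or_ne (LinearMap.ker A.mulVecLin) ⊥ with hb | hb
    · exact ⟨0, fun x hx => ⟨0, by rw [hb, Submodule.mem_bot] at hx; rw [hx, smul_zero]⟩⟩
    · obtain ⟨v, hvK, hv0⟩ := (Submodule.ne_bot_iff _).1 hb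
      refine ⟨v, fun x hx => ?_⟩
      have h1 : Module.finrank (ResidueField O) (LinearMap.ker A.mulVecLin) = 1 :=
        le_antisymm hker (Submodule.one_le_finrank_iff.2 hb)
      obtain ⟨a, ha⟩ := (finrank_eq_one_iff_of_nonzero' (⟨v, hvK⟩ : LinearMap.ker A.mulVecLin)
        (fun e => hv0 (congrArg Subtype.val e))).1 h1 ⟨x, hx⟩
      exact ⟨a, (congrArg Subtype.val ha).symm⟩
  refine ⟨v, fun σ hσ w => ?_⟩
  obtain ⟨a, ha⟩ := hv ((R σ - 1).mulVec w) (by
    rw [LinearMap.mem_ker, Matrix.mulVecLin_apply, Matrix.mulVec_mulVec, hrel σ₀ hσ₀ σ hσ,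
      Matrix.zero_mulVec])
  refine ⟨a, ?_⟩
  show (R σ).mulVec w = _
  rw [← ha, Matrix.sub_mulVec, Matrix.one_mulVec, add_sub_cancel]

end Ctx

end FLTAgent.ModLift
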