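import Fermat.Agent.ModLift.Modules.TraceLocal
import Fermat.Agent.ModLift.Lift.Tower.Interface

/-!
# The coefficient map

Roots of unity of `p`-power order, one for each auxiliary prime, give a character of the diamond
group; with the values `1 + X i` it maps the group ring to the power series modulo a power.
-/

set_option autoImplicit false
set_option linter.unusedSectionVars false
set_option linter.style.haveILetI false

noncomputable section

open IsLocalRing

namespace FLTAgent.ModLift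

open FLTAgent.Lowering

variable {p : ℕ} [hp : Fact p.Prime] {O : Type} [CommRing O] [IsDomain O]
  [IsDiscreteValuationRing O] [Algebra ℤ_[p] O] [Module.Finite ℤ_[p] O] [CharZero O] {S : Setup p O}
  (X : Aux S)

namespace Tower

/-- The character with prescribed values at chosen generators. -/
theorem exists_diaHom {C : Type} [CommMonoid C] {n : ℕ} (hn : ∀ q ∈ X.Q, p ^ n ∣ q - 1)
    (u : X.Q → C) (hu : ∀ q, u q ^ p ^ n = 1) :
    ∃ (c : ∀ q : X.Q, (ZMod (q : ℕ))ˣ) (ψ : X.Dia →* C),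
      (∀ q : X.Q, ψ (X.halfAt q q.2 (c q)) = u q) ∧
      ∀ {C' : Type} [CommMonoid C'] (f : C →* C'), (∀ q, f (u q) = 1) → ∀ g, f (ψ g) = 1 := by
  classical
  haveI hne : ∀ q : X.Q, NeZero (q : ℕ) := fun q => ⟨(X.prime q q.2).ne_zero⟩
  haveI hprime := fun q : X.Q => (⟨X.prime q q.2⟩ : Fact (q : ℕ).Prime)
  have hc : ∀ q : X.Q, ∃ c : (ZMod (q : ℕ))ˣ, ∀ x, x ∈ Subgroup.zpowers c := fun q =>
    IsCyclic.exists_generator
  choose c hc using hc
  let U : X.Q → Cˣ := fun q => Units.ofPowEqOne (u q) (p ^ n) (hu q) (pow_ne_zero _ hp.out.ne_zero)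
  have hU : ∀ q, (U q ^ 2) ^ p ^ n = 1 := fun q => Units.ext (by
    rw [← pow_mul, mul_comm, pow_mul, Units.val_pow_eq_pow_val, Units.val_pow_eq_pow_val]
    simp [U, hu q])
  have hord : ∀ q : X.Q, orderOf (U q ^ 2) ∣ orderOf (c q) := fun q => by
    rw [orderOf_eq_card_of_forall_mem_zpowers (hc q), Nat.card_eq_fintype_card,
      ZMod.card_units]
    exact (orderOf_dvd_of_pow_eq_one (hU q)).trans (hn q q.2)
  let ψq : ∀ q : X.Q, (ZMod (q : ℕ))ˣ →* Cˣ := fun q => monoidHomOfForallMemZpowers (hc q) (hord q)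
  have hψq : ∀ q, ψq q (c q) = U q ^ 2 := fun q =>
    monoidHomOfForallMemZpowers_apply_gen (hc q) (hord q)
  have hψpow : ∀ q x, ψq q x ^ p ^ n = 1 := fun q x => by
    obtain ⟨z, rfl⟩ := hc q x
    simp only
    rw [map_zpow, hψq, ← zpow_natCast, ← zpow_mul, mul_comm, zpow_mul, zpow_natCast, hU, one_zpow]
  let Ψ : X.Units' →* Cˣ :=
    { toFun := fun x => ∏ q : X.Q, ψq q (x q)
      map_one' := by simp
      map_mul' := fun x y => by simp [map_mul, Finset.prod_mul_distrib] }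
  have hK : ∀ q : X.Q, n ≤ Nat.card X.Units' := fun q => by
    have h1 : Nat.card (ZMod (q : ℕ))ˣ ∣ Nat.card X.Units' := by
      rw [Nat.card_pi]
      exact Finset.dvd_prod_of_mem _ (Finset.mem_univ q)
    have h2 := Nat.le_of_dvd Nat.card_pos h1
    rw [Nat.card_eq_fintype_card (α := (ZMod (q : ℕ))ˣ), ZMod.card_units] at h2
    have h3 := Nat.le_of_dvd (by have := (X.prime q q.2).two_le; omega) (hn q q.2)
    exact ((Nat.lt_pow_self hp.out.one_lt).le.trans h3).trans h2
  have hker : X.coSylow ≤ Ψ.ker := by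
    rintro _ ⟨x, rfl⟩
    rw [MonoidHom.mem_ker]
    show ∏ q : X.Q, ψq q ((x ^ p ^ Nat.card X.Units') q) = 1
    refine Finset.prod_eq_one fun q _ => ?_
    rw [Pi.pow_apply, map_pow, ← Nat.add_sub_of_le (hK q), pow_add p, pow_mul, hψpow, one_pow]
  let ψ0 : X.Dia →* Cˣ := QuotientGroup.lift X.coSylow Ψ hker
  let ψ : X.Dia →* C := (Units.coeHom C).comp ψ0
  refine ⟨c, ψ, fun q => ?_, fun {C'} _ f hf g => ?_⟩
  swap
  · obtain ⟨x, rfl⟩ := QuotientGroup.mk'_surjective X.coSylow g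
    show f ((∏ q : X.Q, ψq q (x q) : Cˣ) : C) = 1
    rw [Units.coe_prod, map_prod]
    refine Finset.prod_eq_one fun q _ => ?_
    obtain ⟨z, hz⟩ := hc q (x q)
    have h1 : Units.map f (U q) = 1 := Units.ext (by simp [U, hf q])
    have h2 : Units.map f (ψq q (x q)) = 1 := by
      rw [← hz]
      simp only
      rw [map_zpow, hψq, map_zpow, map_pow, h1, one_pow, one_zpow]
    exact congrArg Units.val h2
  have hdia : ψ0 (X.diaAt q q.2 (c q)) = U q ^ 2 := by
    show Ψ (Pi.mulSingle (⟨q, q.2⟩ : X.Q) (c q)) = _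
    show ∏ r : X.Q, ψq r (Pi.mulSingle (M := fun r : X.Q => (ZMod (r : ℕ))ˣ) q (c q) r) = _
    rw [Fintype.prod_eq_single q fun r hr => by rw [Pi.mulSingle_eq_of_ne hr, map_one],
      Pi.mulSingle_eq_same, hψq]
  have hcard : U q ^ Nat.card X.Dia = 1 := by
    have h1 : (U q ^ 2) ^ Nat.card X.Dia = 1 := by
      rw [← hdia, ← map_pow, pow_card_eq_one', map_one]
    rw [← pow_mul, mul_comm, pow_mul] at h1
    have h2 : (U q ^ Nat.card X.Dia) ^ p ^ n = 1 := by
      rw [← pow_mul, mul_comm, pow_mul]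
      have : U q ^ p ^ n = 1 := Units.ext (by simp [U])
      rw [this, one_pow]
    have hcop : Nat.gcd 2 (p ^ n) = 1 := by
      exact Nat.coprime_two_left.2 (Aux.odd_prime_pow n X)
    have := pow_gcd_eq_one.2 ⟨h1, h2⟩
    rwa [hcop, pow_one] at this
  obtain ⟨k, hk⟩ := X.odd_card_dia
  show ((ψ0 (X.halfAt q q.2 (c q)) : Cˣ) : C) = u q
  have hh : X.halfAt q q.2 (c q) = X.diaAt q q.2 (c q) ^ ((Nat.card X.Dia + 1) / 2) := rfl
  rw [hh, map_pow, hdia, ← pow_mul, show 2 * ((Nat.card X.Dia + 1) / 2) = Nat.card X.Dia + 1 by omega,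
    pow_succ, hcard, one_mul]
  simp [U]

/-- A power of `1 + y` is congruent to one. -/
theorem one_add_pow_sub_one_mem {A : Type} [CommRing A] {I : Ideal A} {p : ℕ} (hp : p.Prime)
    (hpI : (p : A) ∈ I) {y : A} (hy : y ∈ I) : ∀ n : ℕ, (1 + y) ^ p ^ n - 1 ∈ I ^ (n + 1)
  | 0 => by simpa using hy
  | n + 1 => by
    have hz := one_add_pow_sub_one_mem hp hpI hy n
    set z := (1 + y) ^ p ^ n - 1 with hzdef
    have he : (1 + y) ^ p ^ (n + 1) = (1 + z) ^ p := by
      rw [pow_succ, pow_mul, hzdef, add_sub_cancel]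
    obtain ⟨r, hr⟩ := exists_add_pow_prime_eq hp (1 : A) z
    rw [he, hr, one_pow, show 1 + z ^ p + (p : A) * 1 * z * r - 1 = z ^ p + (p : A) * z * r by ring,
      pow_succ I (n + 1)]
    refine add_mem ?_ ?_
    · rw [← Nat.sub_add_cancel hp.two_le, pow_add z, sq]
      refine Ideal.mul_mem_left _ _ (Ideal.mul_mem_mul hz ?_)
      exact Ideal.pow_le_self n.succ_ne_zero hz
    · rw [mul_comm (p : A) z]
      exact Ideal.mul_mem_right _ _ (Ideal.mul_mem_mul hz hpI)


/-- Reduction of truncated coefficients to `O`. -/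
def toConst (r k : ℕ) : CMod O r k →+* O ⧸ maximalIdeal O ^ k :=
  Ideal.quotientMap _ MvPowerSeries.constantCoeff <| by
    rw [← Ideal.map_le_iff_le_comap, Ideal.map_pow]
    refine Ideal.pow_right_mono (Ideal.map_le_iff_le_comap.2 fun f hf => ?_) k
    rw [Ideal.mem_comap, mem_maximalIdeal, mem_nonunits_iff]
    rw [mem_maximalIdeal, mem_nonunits_iff, MvPowerSeries.isUnit_iff_constantCoeff] at hf
    exact hf

/-- The coefficient map. -/
theorem exists_coefHom (hpO : (p : O) ∈ maximalIdeal O) {r : ℕ} (eQ : Fin r ≃ X.Q) {n k : ℕ}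
    (hkn : k ≤ n) (hq : ∀ q ∈ X.Q, p ^ n ∣ q - 1) :
    ∃ (c : ∀ q : X.Q, (ZMod (q : ℕ))ˣ) (L : X.Coef →ₐ[O] CMod O r k),
      (∀ j, L (MonoidAlgebra.of O X.Dia (X.halfAt _ (eQ j).2 (c (eQ j))) +
          MonoidAlgebra.of O X.Dia (X.halfAt _ (eQ j).2 (c (eQ j)))⁻¹) - 2 =
        Ideal.Quotient.mk _ (twFun O r j)) ∧
      ∀ a, ∃ b : MvPowerSeries (Fin r) O, L a = Ideal.Quotient.mk _ b ∧
        MvPowerSeries.constantCoeff b - X.aug a ∈ maximalIdeal O ^ k := by
  classical
  set A := MvPowerSeries (Fin r) O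
  let u : X.Q → CMod O r k := fun q => Ideal.Quotient.mk _ (1 + MvPowerSeries.X (eQ.symm q))
  have hXm : ∀ j, (MvPowerSeries.X j : A) ∈ maximalIdeal A := fun j => by
    rw [mem_maximalIdeal, mem_nonunits_iff, MvPowerSeries.isUnit_iff_constantCoeff]
    simp
  have hpA : (p : A) ∈ maximalIdeal A := by
    rw [mem_maximalIdeal, mem_nonunits_iff, MvPowerSeries.isUnit_iff_constantCoeff, map_natCast]
    exact (mem_maximalIdeal _).1 hpO
  have hu : ∀ q, u q ^ p ^ n = 1 := fun q => by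
    rw [← map_one (Ideal.Quotient.mk (maximalIdeal A ^ k)), ← map_pow, Ideal.Quotient.eq]
    exact Ideal.pow_le_pow_right (by omega) (one_add_pow_sub_one_mem hp.out hpA (hXm _) n)
  obtain ⟨c, ψ, hψ, hψ1⟩ := exists_diaHom X hq u hu
  refine ⟨c, MonoidAlgebra.lift O (CMod O r k) X.Dia ψ, fun j => ?_, ?_⟩
  · set hh := X.halfAt _ (eQ j).2 (c (eQ j))
    have h1 : ψ hh = Ideal.Quotient.mk _ (1 + MvPowerSeries.X j) := by
      rw [hψ]; simp [u]
    have hunit : IsUnit (1 + MvPowerSeries.X j : A) :=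
      MvPowerSeries.isUnit_iff_constantCoeff.2 (by simp)
    have h2 : ψ hh⁻¹ = Ideal.Quotient.mk _ (Ring.inverse (1 + MvPowerSeries.X j : A)) := by
      have e1 : ψ hh⁻¹ * ψ hh = 1 := by rw [← map_mul, inv_mul_cancel, map_one]
      rw [h1] at e1
      calc ψ hh⁻¹ = ψ hh⁻¹ * Ideal.Quotient.mk _ ((1 + MvPowerSeries.X j : A) *
            Ring.inverse (1 + MvPowerSeries.X j)) := by
            rw [Ring.mul_inverse_cancel _ hunit, map_one, mul_one]
        _ = _ := by rw [map_mul, ← mul_assoc, e1, one_mul]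
    rw [map_add, MonoidAlgebra.lift_of, MonoidAlgebra.lift_of, h1, h2,
      ← map_ofNat (Ideal.Quotient.mk (maximalIdeal A ^ k)) 2, ← map_add, ← map_sub, twFun]
    congr 1
    have h3 := Ring.mul_inverse_cancel _ hunit
    linear_combination (-(MvPowerSeries.X j : A) + 1) * h3
  · intro a
    set L := MonoidAlgebra.lift O (CMod O r k) X.Dia ψ
    let tb : CMod O r k →+* O ⧸ maximalIdeal O ^ k := toConst r k
    have key : tb (L a) = Ideal.Quotient.mk _ (X.aug a) := by
      induction a using MonoidAlgebra.induction_on with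
      | of g =>
        rw [MonoidAlgebra.lift_of, X.aug_of, map_one]
        refine hψ1 tb.toMonoidHom (fun q => ?_) g
        show tb (u q) = 1
        rw [show tb (u q) = Ideal.Quotient.mk _
          (MvPowerSeries.constantCoeff (1 + MvPowerSeries.X (eQ.symm q) : A)) from rfl]
        simp
      | add x y hx hy => simp only [map_add, hx, hy]
      | smul o x hx =>
        rw [map_smul L, map_smul X.aug, Algebra.smul_def, map_mul, hx, smul_eq_mul, map_mul]
        congr 1
    obtain ⟨b, hb⟩ := Ideal.Quotient.mk_surjective (L a)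
    refine ⟨b, hb.symm, ?_⟩
    rw [← hb] at key
    exact Ideal.Quotient.eq.1 key

end Tower

end FLTAgent.ModLift
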