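import Mathlib

/-!
# Uniform exponents on the cokernel of a residually injective map

Over a reduced local ring a map of free modules that is injective modulo the maximal ideal has a
retraction, so an endomorphism whose powers eventually land in its range lands there after as many
steps as the rank. Group algebras of finite commutative groups over a domain of characteristic zero
are reduced.
-/

set_option autoImplicit false
set_option linter.unusedSectionVars false
set_option linter.style.haveILetI false

noncomputable section

open IsLocalRing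

namespace FLTAgent.ModLift.Tower

/-- A nilpotent matrix over a reduced ring vanishes after as many steps as its size. -/
theorem matrix_pow_card_eq_zero {A : Type*} [CommRing A] [IsReduced A] {n : Type*} [Fintype n]
    [DecidableEq n] {N : Matrix n n A} (hN : IsNilpotent N) : N ^ Fintype.card n = 0 := by
  have h1 : N.charpoly - Polynomial.X ^ Fintype.card n = 0 :=
    Polynomial.ext fun i => by
      rw [Polynomial.coeff_zero]
      exact (Polynomial.isNilpotent_iff.1
        (Matrix.isNilpotent_charpoly_sub_pow_of_isNilpotent hN) i).eq_zero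
  have h2 := Matrix.aeval_self_charpoly N
  rwa [sub_eq_zero.1 h1, map_pow, Polynomial.aeval_X] at h2

/-- The group algebra of a finite commutative group over a domain of characteristic zero is
reduced. -/
theorem isReduced_monoidAlgebra (O : Type) [CommRing O] [IsDomain O] [CharZero O] (G : Type)
    [CommGroup G] [Finite G] : IsReduced (MonoidAlgebra O G) := by
  let K := FractionRing O
  haveI : CharZero K :=
    charZero_of_injective_ringHom (IsFractionRing.injective O K)
  haveI : NeZero (Nat.card G : K) := ⟨Nat.cast_ne_zero.2 Nat.card_pos.ne'⟩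
  haveI : IsReduced (MonoidAlgebra K G) := inferInstance
  exact isReduced_of_injective (MonoidAlgebra.mapRingHom G (algebraMap O K))
    (by
      rw [MonoidAlgebra.coe_mapRingHom]
      exact MonoidAlgebra.map_injective _ (IsFractionRing.injective O K))

variable {A : Type} [CommRing A] [IsLocalRing A]
  {M N : Type} [AddCommGroup M] [Module A M] [AddCommGroup N] [Module A N]
  {ι κ : Type} [Fintype ι] [DecidableEq ι] [Fintype κ] [DecidableEq κ]

/-- A map injective modulo the maximal ideal has a retraction. -/
theorem exists_retraction (b : Module.Basis ι A M) (b' : Module.Basis κ A N) (f : M →ₗ[A] N)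
    (hinj : ∀ x, f x ∈ (maximalIdeal A • ⊤ : Submodule A N) →
      x ∈ (maximalIdeal A • ⊤ : Submodule A M)) :
    ∃ r : N →ₗ[A] M, r ∘ₗ f = LinearMap.id := by
  classical
  set F := LinearMap.toMatrix b b' f
  let F' := F.map (residue A)
  have hrepr : ∀ y ∈ (maximalIdeal A • ⊤ : Submodule A M), ∀ i, b.repr y i ∈ maximalIdeal A := by
    intro y hy i
    refine Submodule.smul_induction_on hy (fun a ha m _ => ?_) (fun m n hm hn => ?_)
    · rw [map_smul, Finsupp.smul_apply, smul_eq_mul]; exact Ideal.mul_mem_right _ _ ha
    · rw [map_add, Finsupp.add_apply]; exact add_mem hm hn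
  have hF' : LinearMap.ker (Matrix.toLin' F') = ⊥ := by
    rw [LinearMap.ker_eq_bot']
    intro x hx
    choose X hX using fun i => residue_surjective (R := A) (x i)
    have hFX : f (∑ i, X i • b i) ∈ (maximalIdeal A • ⊤ : Submodule A N) := by
      rw [← b'.sum_repr (f (∑ i, X i • b i))]
      refine Submodule.sum_mem _ fun k _ => Submodule.smul_mem_smul ?_ Submodule.mem_top
      have e : b'.repr (f (∑ i, X i • b i)) k = F.mulVec X k := by
        rw [map_sum, map_sum, Finsupp.finsetSum_apply, Matrix.mulVec, dotProduct]
        refine Finset.sum_congr rfl fun i _ => ?_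
        rw [map_smul, map_smul, Finsupp.smul_apply, smul_eq_mul, mul_comm]
        exact congrArg (· * X i) (LinearMap.toMatrix_apply b b' f k i).symm
      rw [e, ← residue_eq_zero_iff, RingHom.map_mulVec, show (residue A : A → _) ∘ X = x from
        funext hX]
      exact congrFun hx k
    funext i
    have h := hrepr _ (hinj _ hFX) i
    rw [b.repr_sum_self] at h
    rw [← hX i, (residue_eq_zero_iff _).2 h]
    rfl
  obtain ⟨l, hl⟩ := (Matrix.toLin' F').exists_leftInverse_of_injective hF'
  have hl' : LinearMap.toMatrix' l * F' = 1 := by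
    rw [← LinearMap.toMatrix'_toLin' F', ← LinearMap.toMatrix'_comp, hl, LinearMap.toMatrix'_id]
  choose L hL using fun i k => residue_surjective (R := A) (LinearMap.toMatrix' l i k)
  let Lm : Matrix ι κ A := Matrix.of L
  have hmap : (Lm * F).map (residue A) = 1 := by
    rw [Matrix.map_mul, show Lm.map (residue A) = LinearMap.toMatrix' l from Matrix.ext hL]
    exact hl'
  have hu : IsUnit (Lm * F) := by
    rw [Matrix.isUnit_iff_isUnit_det, ← notMem_maximalIdeal, ← residue_eq_zero_iff,
      RingHom.map_det, RingHom.mapMatrix_apply, hmap, Matrix.det_one]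
    exact one_ne_zero
  obtain ⟨u, hu⟩ := hu
  refine ⟨Matrix.toLin b' b ((↑u⁻¹ : Matrix ι ι A) * Lm), ?_⟩
  apply (LinearMap.toMatrix b b).injective
  rw [LinearMap.toMatrix_comp b b' b, LinearMap.toMatrix_toLin, Matrix.mul_assoc, ← hu,
    Units.inv_mul, LinearMap.toMatrix_id]

/-- An endomorphism whose powers reach the range does so after as many steps as the rank. -/
theorem pow_card_mem_range [IsReduced A] (b : Module.Basis ι A M) (b' : Module.Basis κ A N)
    (f : M →ₗ[A] N)
    (hinj : ∀ x, f x ∈ (maximalIdeal A • ⊤ : Submodule A N) →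
      x ∈ (maximalIdeal A • ⊤ : Submodule A M))
    (g : Module.End A N) (hg : ∀ x, g (f x) ∈ LinearMap.range f)
    {n : ℕ} (hn : ∀ y, (g ^ n) y ∈ LinearMap.range f) {E : ℕ} (hE : Fintype.card κ ≤ E) :
    ∀ y, (g ^ E) y ∈ LinearMap.range f := by
  obtain ⟨r, hr⟩ := exists_retraction b b' f hinj
  set π : Module.End A N := 1 - f ∘ₗ r
  have hπf : ∀ x, π (f x) = 0 := fun x => by
    show f x - f (r (f x)) = 0
    rw [show r (f x) = x from LinearMap.congr_fun hr x, sub_self]
  have hcomp : π * g * π = π * g := LinearMap.ext fun y => by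
    show π (g (y - f (r y))) = π (g y)
    obtain ⟨x, hx⟩ := hg (r y)
    rw [map_sub, map_sub, ← hx, hπf, sub_zero]
  have hpow : ∀ k, (π * g) ^ (k + 1) = π * g ^ (k + 1) := by
    intro k
    induction k with
    | zero => rw [pow_one, pow_one]
    | succ k ih => rw [pow_succ', ih, ← mul_assoc, hcomp, mul_assoc, ← pow_succ']
  have hnil : IsNilpotent (π * g) := ⟨n + 1, by
    rw [hpow]
    refine LinearMap.ext fun y => ?_
    obtain ⟨x, hx⟩ := hn (g y)
    rw [pow_succ, Module.End.mul_apply, Module.End.mul_apply, ← hx, hπf]
    rfl⟩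
  have h0 : (π * g) ^ E = 0 := by
    have h1 := matrix_pow_card_eq_zero (hnil.map (LinearMap.toMatrixAlgEquiv b'))
    rw [← map_pow, ← map_zero (LinearMap.toMatrixAlgEquiv b')] at h1
    have h2 := (LinearMap.toMatrixAlgEquiv b').injective h1
    rw [← Nat.add_sub_of_le hE, pow_add, h2, zero_mul]
  intro y
  rcases E with - | k
  · have h1 := LinearMap.congr_fun h0 y
    rw [pow_zero] at h1 ⊢
    exact ⟨0, by rw [map_zero]; exact h1.symm⟩
  · have h1 := LinearMap.congr_fun ((hpow k).symm.trans h0) y
    exact ⟨r ((g ^ (k + 1)) y), (sub_eq_zero.1 h1).symm⟩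

end FLTAgent.ModLift.Tower
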