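import Fermat.Agent.ModLift.Lift.Tower.Mats.Rep
import Fermat.Agent.ModLift.Modules.Flat

/-!
# The local properties of a level, seen on a representation with the same traces

A representation over an algebra mapping onto that of a level with the same traces has, modulo the
kernel, all the local properties of the level.
-/

set_option autoImplicit false
set_option linter.unusedSectionVars false
set_option linter.style.haveILetI false

noncomputable section

set_option synthInstance.maxHeartbeats 400000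
set_option maxHeartbeats 1000000

open IsLocalRing

namespace FLTAgent.ModLift.Tower

open FLTAgent.Lowering

local notation "LL" => AlgebraicClosure ℚ
local notation "GG" => (AlgebraicClosure ℚ ≃ₐ[ℚ] AlgebraicClosure ℚ)
local notation "M2" => Matrix (Fin 2) (Fin 2)

variable {p : ℕ} [Fact p.Prime] {O : Type} [CommRing O] [IsDomain O] [IsDiscreteValuationRing O]
  [Algebra ℤ_[p] O] [Module.Finite ℤ_[p] O] [CharZero O] {S : Setup p O} (X : Aux S)
  {R' : Type} [CommRing R'] [Algebra O R'] (π : R' →ₐ[O] X.TR) (ρ' : GG →* GL (Fin 2) R')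

/-- The traces agree. -/
def SameTraces : Prop := ∀ σ, π (Matrix.trace (ρ' σ : M2 R')) = trGL (repTR X σ)

variable {X π ρ'} (h : SameTraces X π ρ')
include h

theorem SameTraces.conj : ∃ P : GL (Fin 2) X.TR, ∀ σ,
    π.toRingHom.mapMatrix (ρ' σ : M2 R') = ((P * repTR X σ * P⁻¹ : GL (Fin 2) X.TR) : M2 X.TR) :=
  exists_conj_of_traces X π.toRingHom ρ' h

theorem SameTraces.det (σ : GG) : π (Matrix.det (ρ' σ : M2 R')) = detGL (repTR X σ) := by
  obtain ⟨P, hP⟩ := h.conj
  rw [show π (Matrix.det (ρ' σ : M2 R')) = (π.toRingHom.mapMatrix (ρ' σ : M2 R')).det from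
    RingHom.map_det π.toRingHom _, hP, det_conj]

theorem SameTraces.unramified {l : ℕ} (hl : l.Prime) (hlp : l ≠ p) (hlN : ¬ l ∣ X.level)
    {V : ValuationSubring LL} (hV : V.LiesOverPrime l) {σ : GG} (hσ : σ ∈ V.inertiaSubgroupIn ℚ)
    (u v : Fin 2) : π ((ρ' σ : M2 R') u v - (1 : M2 R') u v) = 0 := by
  obtain ⟨P, hP⟩ := h.conj
  have e : π.toRingHom.mapMatrix ((ρ' σ : M2 R') - 1) = 0 := by
    rw [map_sub, map_one, hP, show repTR X σ = 1 from
      (X.levelData X.geometry).unramified l hl hlp hlN V hV σ hσ, mul_one, mul_inv_cancel,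
      Units.val_one, sub_self]
  exact congrFun (congrFun e u) v

theorem SameTraces.unipotent {l : ℕ} (hl : l.Prime) (hlp : l ≠ p) (hlM : l ∣ S.M0) (hlT : l ∉ S.T)
    {V : ValuationSubring LL} (hV : V.LiesOverPrime l) {σ : GG} (hσ : σ ∈ V.inertiaSubgroupIn ℚ) :
    π (Matrix.trace (ρ' σ : M2 R') - 2) = 0 ∧
      ∀ u v, π ((((ρ' σ : M2 R') - 1) ^ 2 : M2 R') u v) = 0 := by
  obtain ⟨htr, -, hsq⟩ := (X.levelData X.geometry).unipotent l hl hlp hlM hlT V hV σ hσ
  obtain ⟨P, hP⟩ := h.conj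
  refine ⟨by rw [map_sub, h, map_ofNat, show trGL (repTR X σ) = 2 from htr, sub_self], ?_⟩
  have hconj : ((P * repTR X σ * P⁻¹ : GL (Fin 2) X.TR) : M2 X.TR) - 1 =
      (P : M2 X.TR) * ((repTR X σ : M2 X.TR) - 1) * ((P⁻¹ : GL (Fin 2) X.TR) : M2 X.TR) := by
    rw [mul_sub, sub_mul, mul_one, Units.mul_inv, Units.val_mul, Units.val_mul]
  have e : π.toRingHom.mapMatrix (((ρ' σ : M2 R') - 1) ^ 2) = 0 := by
    rw [map_pow, map_sub, map_one, hP, hconj, sq, mul_assoc, ← mul_assoc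
      ((P⁻¹ : GL (Fin 2) X.TR) : M2 X.TR), ← mul_assoc ((P⁻¹ : GL (Fin 2) X.TR) : M2 X.TR),
      Units.inv_mul, one_mul, ← mul_assoc, mul_assoc (P : M2 X.TR),
      show ((repTR X σ : M2 X.TR) - 1) * ((repTR X σ : M2 X.TR) - 1) = 0 from (sq _).symm.trans hsq,
      mul_zero, zero_mul]
  exact fun u v => congrFun (congrFun e u) v

theorem SameTraces.untwisted {t : ℕ} (ht : t ∈ S.T) {V : ValuationSubring LL}
    (hV : V.LiesOverPrime t) {σ : GG} (hσ : σ ∈ V.inertiaSubgroupIn ℚ) :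
    X.actTR false (π (Matrix.trace (ρ' σ : M2 R') - 2)) = 0 := by
  rw [map_sub, h, map_ofNat, map_sub, map_ofNat, show X.actTR false (trGL (repTR X σ)) = 2 from
    ((X.levelData X.geometry).inertia_T_untwisted t ht V hV σ hσ).1, sub_self]

theorem SameTraces.twisted {t : ℕ} (ht : t ∈ S.T) {V : ValuationSubring LL}
    (hV : V.LiesOverPrime t) {σ : GG} (hσ : σ ∈ V.inertiaSubgroupIn ℚ) (u : (ZMod t)ˣ)
    (hu : ∀ ζ : LL, ζ ^ t = 1 → σ ζ = ζ ^ (u : ZMod t).val) :
    X.actTR true (π ((Matrix.trace (ρ' σ : M2 R') - algebraMap O R'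
      (((S.χ t ht u) ^ ((p + 1) / 2) : Oˣ) +
        (((S.χ t ht u) ^ ((p + 1) / 2))⁻¹ : Oˣ))) ^ inertiaExp)) = 0 := by
  rw [map_pow, map_sub, h, AlgHom.commutes, map_pow, map_sub, AlgHom.commutes]
  exact (X.levelData X.geometry).inertia_T_twisted t ht V hV σ hσ u hu

theorem SameTraces.ordinary (hp : p ∣ S.M0) {V : ValuationSubring LL} (hV : V.LiesOverPrime p)
    (hord : ∃ v : Fin 2 → ResidueField O, ∀ σ ∈ V.inertiaSubgroupIn ℚ, ∀ w,
      ∃ a : ResidueField O, (S.rb σ : M2 (ResidueField O)).mulVec w = w + a • v)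
    {σ : GG} (hσ : σ ∈ V.inertiaSubgroupIn ℚ) {τ : GG} (hτ : τ ∈ V.inertiaSubgroupIn ℚ)
    (u v : Fin 2) :
    π ((((ρ' σ : M2 R') - Matrix.det (ρ' σ : M2 R') • 1) * ((ρ' τ : M2 R') - 1)) u v) = 0 := by
  obtain ⟨P, hP⟩ := h.conj
  set Pm : M2 X.TR := (P : M2 X.TR)
  set Pi' : M2 X.TR := ((P⁻¹ : GL (Fin 2) X.TR) : M2 X.TR)
  have h1 : ((repTR X σ : M2 X.TR) - detGL (repTR X σ) • 1) * ((repTR X τ : M2 X.TR) - 1) = 0 :=
    (X.levelData X.geometry).ordinary hp hV hord σ hσ τ hτ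
  have eσ : π.toRingHom.mapMatrix ((ρ' σ : M2 R') - Matrix.det (ρ' σ : M2 R') • 1) =
      Pm * ((repTR X σ : M2 X.TR) - detGL (repTR X σ) • 1) * Pi' := by
    have e : π.toRingHom.mapMatrix (Matrix.det (ρ' σ : M2 R') • (1 : M2 R')) =
        detGL (repTR X σ) • (1 : M2 X.TR) := by
      rw [← h.det]
      ext a b
      by_cases hab : a = b
      · subst hab; simp
      · simp [hab]
    rw [map_sub, e, hP, mul_sub, sub_mul, mul_smul_comm, mul_one, smul_mul_assoc, Units.mul_inv,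
      Units.val_mul, Units.val_mul]
  have eτ : π.toRingHom.mapMatrix ((ρ' τ : M2 R') - 1) =
      Pm * ((repTR X τ : M2 X.TR) - 1) * Pi' := by
    rw [map_sub, map_one, hP, mul_sub, sub_mul, mul_one, Units.mul_inv, Units.val_mul,
      Units.val_mul]
  have e : π.toRingHom.mapMatrix (((ρ' σ : M2 R') - Matrix.det (ρ' σ : M2 R') • 1) *
      ((ρ' τ : M2 R') - 1)) = 0 := by
    rw [map_mul, eσ, eτ, mul_assoc, ← mul_assoc Pi', ← mul_assoc Pi', Units.inv_mul, one_mul,
      ← mul_assoc, mul_assoc Pm, h1, mul_zero, zero_mul]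
  exact congrFun (congrFun e u) v

theorem SameTraces.flat (hp : ¬ p ∣ S.M0) (hπ : Function.Surjective π)
    {V : ValuationSubring LL} (hV : V.LiesOverPrime p) :
    ∃ s : ℕ, ∀ n : ℕ, ∃ (M : Type) (_ : AddCommGroup M) (_ : Module R' M) (_ : Finite M)
      (actM : GG →* Module.End R' M),
      (∀ m : M, p ^ n • m = 0) ∧ (∀ x : R', π x = 0 → ∀ m : M, x • m = 0) ∧
      (∀ (σ : GG) (m : M), actM σ (actM σ m) + Matrix.det (ρ' σ : M2 R') • m =
        Matrix.trace (ρ' σ : M2 R') • actM σ m) ∧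
      (∀ t : R', (∀ m : M, t • m = 0) →
        t ∈ Ideal.span {(p : R') ^ (n - s)} ⊔ RingHom.ker π) ∧
      FlatLocal.FlatI V fun σ : FlatLocal.Dec V => actM (σ : GG) := by
  obtain ⟨s, hs⟩ := (X.levelData X.geometry).flat hp hV
  refine ⟨s, fun n => ?_⟩
  obtain ⟨Wn, iG, iM, iF, actW, hkill, hrel, hann, hflat⟩ := hs n
  letI iMT : Module X.TR Wn := iM
  letI : Module R' Wn := Module.compHom Wn π.toRingHom
  have hsm : ∀ (x : R') (w : Wn), x • w = π x • w := fun _ _ => rfl
  let actM : GG →* Module.End R' Wn :=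
    { toFun := fun σ =>
        { toFun := fun w => actW σ w
          map_add' := fun a b => map_add (actW σ) a b
          map_smul' := fun x w => (actW σ).map_smul (π x) w }
      map_one' := LinearMap.ext fun w => by
        show actW 1 w = w
        rw [map_one]
        rfl
      map_mul' := fun a b => LinearMap.ext fun w => by
        show actW (a * b) w = actW a (actW b w)
        rw [map_mul]
        rfl }
  refine ⟨Wn, iG, inferInstance, iF, actM, hkill, fun x hx w => ?_, fun σ w => ?_, fun t ht => ?_,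
    hflat.restrict (AddMonoidHom.id Wn) (fun _ _ e => e) fun _ _ _ => rfl⟩
  · rw [hsm, hx, zero_smul]
  · rw [hsm, hsm, h.det, h σ]
    exact hrel σ w
  · have h1 : π t ∈ Ideal.span {(p : X.TR) ^ (n - s)} := hann (π t) fun w => ht w
    obtain ⟨a, ha⟩ := Ideal.mem_span_singleton.1 h1
    obtain ⟨a', rfl⟩ := hπ a
    rw [show t = (p : R') ^ (n - s) * a' + (t - (p : R') ^ (n - s) * a') from
      (add_sub_cancel _ _).symm]
    refine Submodule.add_mem_sup (Ideal.mul_mem_right _ _ (Ideal.mem_span_singleton_self _)) ?_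
    rw [RingHom.mem_ker, map_sub, map_mul, map_pow, map_natCast, ha, sub_self]

end FLTAgent.ModLift.Tower
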