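import Fermat.Agent.ModLift.Lift.Tower.Mats.Chain
import Fermat.Agent.ModLift.Lift.Tower.Mats.Rep
import Fermat.Agent.ModLift.Degen.NewInterface

/-!
# The maps between the algebras of the steps

The restriction maps of the degeneracy pairs compose to maps from the algebra of the last step,
sending traces to traces.
-/

set_option autoImplicit false
set_option linter.unusedSectionVars false
set_option linter.style.haveILetI false

noncomputable section

set_option synthInstance.maxHeartbeats 400000
set_option maxHeartbeats 1000000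

open IsLocalRing

namespace FLTAgent.ModLift.Tower

open FLTAgent.Lowering
open FLTAgent.TWPrimes (IsAux)

local notation "LL" => AlgebraicClosure ℚ
local notation "GG" => (AlgebraicClosure ℚ ≃ₐ[ℚ] AlgebraicClosure ℚ)
local notation "M2" => Matrix (Fin 2) (Fin 2)

variable {W : WeierstrassCurve ℤ} {hΔ : W.Δ ≠ 0} {p : ℕ} [Fact p.Prime] {O : Type} [CommRing O]
  [IsDomain O] [IsDiscreteValuationRing O] [Algebra ℤ_[p] O] [Module.Finite ℤ_[p] O] [CharZero O]
  [Algebra (ZMod p) (ResidueField O)] (c : Ctx W hΔ p O) {n : ℕ} (Q : Finset Nat.Primes)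
  (hQ : ∀ q ∈ Q, q ∉ c.S ∧ IsAux c.D n q)

theorem resTR_trace_rep {S : Setup p O} (X : Aux S) (σ : GG) :
    X.resTR (trGL (repTR X σ)) = trGL (repTR (Aux.empty S) σ) :=
  (congrArg X.resTR ((X.pseudo_spec X.geometry).tr_rep σ)).trans
    ((X.resTR_pseudo (X.pseudo_spec X.geometry)
        ((Aux.empty S).pseudo_spec (Aux.empty S).geometry) σ).trans
      (((Aux.empty S).pseudo_spec (Aux.empty S).geometry).tr_rep σ).symm)

theorem generated_repTR {S : Setup p O} (X : Aux S) :
    Algebra.adjoin O (Set.range fun σ => trGL (repTR X σ)) = ⊤ :=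
  (X.levelData X.geometry).generated

/-- A map sending traces to traces is surjective. -/
theorem surjective_of_traces {S : Setup p O} (X : Aux S) {R : Type} [CommRing R] [Algebra O R]
    (π : R →ₐ[O] X.TR) (ρ : GG →* GL (Fin 2) R)
    (h : ∀ σ, π (Matrix.trace (ρ σ : M2 R)) = trGL (repTR X σ)) : Function.Surjective π := by
  rw [← AlgHom.range_eq_top, eq_top_iff, ← generated_repTR X, Algebra.adjoin_le_iff]
  rintro _ ⟨σ, rfl⟩
  exact ⟨_, h σ⟩

/-- From the algebra of the last step to that of any step. -/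
theorem exists_stepMap (hnew : TargetNewPart) (j : Fin (c.m + 1)) :
    ∃ π : (c.aux Q hQ (Fin.last _)).TR →ₐ[O] (c.aux Q hQ j).TR,
      ∀ σ, π (Matrix.trace (liftRep (c.aux Q hQ (Fin.last _)) σ : M2 _)) =
        trGL (repTR (c.aux Q hQ j) σ) := by
  induction j using Fin.reverseInduction with
  | last => exact ⟨AlgHom.id O _, fun σ => liftRep_trace _ σ⟩
  | cast i ih =>
    obtain ⟨π, hπ⟩ := ih
    obtain ⟨D, -⟩ := hnew p O (c.setup i.castSucc) (c.setup i.succ) (c.q i) (c.raise i)
      (c.aux Q hQ i.castSucc)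
    let res : (c.aux Q hQ i.succ).TR →ₐ[O] (c.aux Q hQ i.castSucc).TR := D.resT
    exact ⟨res.comp π, fun σ => (congrArg res (hπ σ)).trans (D.resT_tr σ)⟩

/-- The map to a step. -/
def stepMap (hnew : TargetNewPart) (j : Fin (c.m + 1)) :
    (c.aux Q hQ (Fin.last _)).TR →ₐ[O] (c.aux Q hQ j).TR :=
  (exists_stepMap c Q hQ hnew j).choose

theorem stepMap_sameTraces (hnew : TargetNewPart) (j : Fin (c.m + 1)) (σ : GG) :
    stepMap c Q hQ hnew j (Matrix.trace (liftRep (c.aux Q hQ (Fin.last _)) σ : M2 _)) =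
      trGL (repTR (c.aux Q hQ j) σ) :=
  (exists_stepMap c Q hQ hnew j).choose_spec σ

theorem stepMap_last (hnew : TargetNewPart) :
    stepMap c Q hQ hnew (Fin.last _) = AlgHom.id O _ := by
  refine AlgHom.ext_of_adjoin_eq_top (generated_repTR (c.aux Q hQ (Fin.last _))) ?_
  rintro _ ⟨σ, rfl⟩
  have h := stepMap_sameTraces c Q hQ hnew (Fin.last _) σ
  rw [liftRep_trace] at h
  exact h

theorem stepMap_castSucc (hnew : TargetNewPart) (j : Fin c.m)
    (D : Degen (c.raise j) (c.aux Q hQ j.castSucc))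
    (x : (c.aux Q hQ (Fin.last _)).TR) :
    stepMap c Q hQ hnew j.castSucc x = D.resT (stepMap c Q hQ hnew j.succ x) := by
  let res : (c.aux Q hQ j.succ).TR →ₐ[O] (c.aux Q hQ j.castSucc).TR := D.resT
  have e : stepMap c Q hQ hnew j.castSucc = res.comp (stepMap c Q hQ hnew j.succ) := by
    refine AlgHom.ext_of_adjoin_eq_top (generated_repTR (c.aux Q hQ (Fin.last _))) ?_
    rintro _ ⟨σ, rfl⟩
    show stepMap c Q hQ hnew j.castSucc (trGL (repTR _ σ)) =
      res (stepMap c Q hQ hnew j.succ (trGL (repTR _ σ)))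
    rw [← liftRep_trace, stepMap_sameTraces, stepMap_sameTraces]
    exact (D.resT_tr σ).symm
  exact DFunLike.congr_fun e x

theorem stepMap_ker_anti (hnew : TargetNewPart) : ∀ j j' : Fin (c.m + 1), j ≤ j' →
    RingHom.ker (stepMap c Q hQ hnew j') ≤ RingHom.ker (stepMap c Q hQ hnew j) := by
  intro j
  induction j using Fin.reverseInduction with
  | last => exact fun j' h => le_of_eq (by rw [le_antisymm (Fin.le_last j') h])
  | cast i ih =>
    intro j' h
    rcases h.eq_or_lt with h | h
    · subst h; exact le_rfl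
    · intro x hx
      obtain ⟨D, -⟩ := hnew p O (c.setup i.castSucc) (c.setup i.succ) (c.q i) (c.raise i)
        (c.aux Q hQ i.castSucc)
      have h1 : stepMap c Q hQ hnew i.succ x = 0 := ih j' (Fin.castSucc_lt_iff_succ_le.1 h) hx
      refine RingHom.mem_ker.2 ?_
      rw [stepMap_castSucc c Q hQ hnew i D x, h1]
      exact map_zero D.resT

end FLTAgent.ModLift.Tower
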