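import Mathlib

/-!
# Maps of free modules in coordinates over a quotient of the coefficients

A linear map of free modules over `A` becomes, through bases and `ψ : A →ₐ[O] C`, a linear map of
coordinate spaces over `C`. Maps out of and into a pair of copies are transferred componentwise.
-/

set_option autoImplicit false
set_option linter.unusedSectionVars false
set_option linter.style.haveILetI false

noncomputable section

open IsLocalRing

namespace FLTAgent.ModLift.Tower

variable {O A C : Type} [CommRing O] [CommRing A] [Algebra O A] [CommRing C] [Algebra O C]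
  (ψ : A →ₐ[O] C)
  {M N P : Type} [AddCommGroup M] [Module A M] [AddCommGroup N] [Module A N] [AddCommGroup P]
  [Module A P]
  {ι κ μ : Type} [Fintype ι] [DecidableEq ι] [Fintype κ] [DecidableEq κ] [Fintype μ]
  [DecidableEq μ]
  (b : Module.Basis ι A M) (b' : Module.Basis κ A N) (b'' : Module.Basis μ A P)

/-- A map in coordinates over `C`. -/
def tr (f : M →ₗ[A] N) : (ι → C) →ₗ[C] κ → C :=
  Matrix.mulVecLin ((LinearMap.toMatrix b b' f).map ψ)

theorem tr_apply (f : M →ₗ[A] N) (v : ι → C) :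
    tr ψ b b' f v = ((LinearMap.toMatrix b b' f).map ψ).mulVec v := rfl

theorem tr_zero : tr ψ b b' (0 : M →ₗ[A] N) = 0 := by
  refine LinearMap.ext fun v => ?_
  rw [tr_apply, map_zero, Matrix.map_zero _ (map_zero ψ), Matrix.zero_mulVec]
  rfl

theorem tr_add (f g : M →ₗ[A] N) : tr ψ b b' (f + g) = tr ψ b b' f + tr ψ b b' g := by
  refine LinearMap.ext fun v => ?_
  rw [tr_apply, map_add, Matrix.map_add _ (map_add ψ), Matrix.add_mulVec]
  rfl

theorem tr_sum {ε : Type} (s : Finset ε) (f : ε → M →ₗ[A] N) :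
    tr ψ b b' (∑ i ∈ s, f i) = ∑ i ∈ s, tr ψ b b' (f i) := by
  classical
  induction s using Finset.induction with
  | empty => rw [Finset.sum_empty, Finset.sum_empty, tr_zero]
  | insert a t ha ih => rw [Finset.sum_insert ha, Finset.sum_insert ha, tr_add, ih]

theorem tr_comp (g : N →ₗ[A] P) (f : M →ₗ[A] N) :
    tr ψ b b'' (g ∘ₗ f) = tr ψ b' b'' g ∘ₗ tr ψ b b' f := by
  refine LinearMap.ext fun v => ?_
  rw [LinearMap.comp_apply, tr_apply, tr_apply, tr_apply, LinearMap.toMatrix_comp b b' b'',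
    Matrix.map_mul, ← Matrix.mulVec_mulVec]

theorem tr_id : tr ψ b b (LinearMap.id : M →ₗ[A] M) = LinearMap.id := by
  refine LinearMap.ext fun v => ?_
  rw [tr_apply, LinearMap.toMatrix_id, Matrix.map_one _ (map_zero ψ) (map_one ψ),
    Matrix.one_mulVec]
  rfl

theorem tr_smul_id (a : A) : tr ψ b b (a • (LinearMap.id : M →ₗ[A] M)) = ψ a • LinearMap.id := by
  refine LinearMap.ext fun v => ?_
  rw [tr_apply, map_smul, LinearMap.toMatrix_id, LinearMap.smul_apply, LinearMap.id_apply,
    show (a • (1 : Matrix ι ι A)).map ψ = ψ a • (1 : Matrix ι ι C) by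
      ext i j; by_cases h : i = j
      · subst h; simp
      · simp [h], Matrix.smul_mulVec, Matrix.one_mulVec]

/-- On a vector coming from `A` the transferred map is the map. -/
theorem tr_map (f : M →ₗ[A] N) (x : ι → A) :
    tr ψ b b' f (fun i => ψ (x i)) = fun k => ψ (b'.repr (f (∑ i, x i • b i)) k) := by
  funext k
  rw [tr_apply, map_sum, map_sum, Finsupp.finsetSum_apply, map_sum]
  refine Finset.sum_congr rfl fun i _ => ?_
  rw [map_smul, map_smul, Finsupp.smul_apply, smul_eq_mul, map_mul]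
  show ψ (LinearMap.toMatrix b b' f k i) * ψ (x i) = _
  rw [LinearMap.toMatrix_apply, mul_comm]

/-- A map from a pair of copies. -/
def trUp (f : (Fin 2 → M) →ₗ[A] N) : (Fin 2 → ι → C) →ₗ[C] κ → C :=
  ∑ j : Fin 2, tr ψ b b' (f ∘ₗ LinearMap.single A (fun _ => M) j) ∘ₗ LinearMap.proj j

/-- A map to a pair of copies. -/
def trDown (g : N →ₗ[A] Fin 2 → M) : (κ → C) →ₗ[C] Fin 2 → ι → C :=
  LinearMap.pi fun i => tr ψ b' b (LinearMap.proj i ∘ₗ g)

theorem trUp_apply (f : (Fin 2 → M) →ₗ[A] N) (v : Fin 2 → ι → C) :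
    trUp ψ b b' f v = ∑ j : Fin 2, tr ψ b b' (f ∘ₗ LinearMap.single A (fun _ => M) j) (v j) := by
  rw [trUp, LinearMap.sum_apply]
  rfl

theorem trDown_apply (g : N →ₗ[A] Fin 2 → M) (v : κ → C) (i : Fin 2) :
    trDown ψ b b' g v i = tr ψ b' b (LinearMap.proj i ∘ₗ g) v := rfl

theorem sum_single_proj : (∑ j : Fin 2, LinearMap.single A (fun _ => M) j ∘ₗ LinearMap.proj j) =
    (LinearMap.id : (Fin 2 → M) →ₗ[A] Fin 2 → M) := by
  refine LinearMap.ext fun x => ?_
  rw [LinearMap.sum_apply, LinearMap.id_apply]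
  conv_rhs => rw [← Finset.univ_sum_single x]
  rfl

theorem trUp_trDown (f : (Fin 2 → M) →ₗ[A] N) (g : P →ₗ[A] Fin 2 → M) (v : μ → C) :
    trUp ψ b b' f (trDown ψ b b'' g v) = tr ψ b'' b' (f ∘ₗ g) v := by
  rw [trUp_apply]
  have h : f ∘ₗ g = ∑ j : Fin 2, (f ∘ₗ LinearMap.single A (fun _ => M) j) ∘ₗ
      (LinearMap.proj j ∘ₗ g) := by
    refine LinearMap.ext fun x => ?_
    rw [LinearMap.sum_apply, LinearMap.comp_apply]
    conv_lhs => rw [← Finset.univ_sum_single (g x), map_sum]
    rfl
  rw [h, tr_sum, LinearMap.sum_apply]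
  refine Finset.sum_congr rfl fun j _ => ?_
  rw [tr_comp ψ b'' b b']
  rfl

theorem trDown_trUp (f : (Fin 2 → M) →ₗ[A] N) (g : N →ₗ[A] Fin 2 → M) (v : Fin 2 → ι → C)
    (i : Fin 2) : trDown ψ b b' g (trUp ψ b b' f v) i =
      ∑ j : Fin 2, tr ψ b b (LinearMap.proj i ∘ₗ g ∘ₗ f ∘ₗ LinearMap.single A (fun _ => M) j)
        (v j) := by
  rw [trDown_apply, trUp_apply, map_sum]
  refine Finset.sum_congr rfl fun j _ => ?_
  rw [← LinearMap.comp_apply, ← tr_comp ψ b b' b]
  rfl

/-- A transferred surjection onto a pair is surjective. -/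
theorem trDown_surjective [Module.Free A M] [Module.Finite A M] {g : N →ₗ[A] Fin 2 → M}
    (hg : Function.Surjective g) : Function.Surjective (trDown ψ b b' g) := by
  obtain ⟨s, hs⟩ := Module.projective_lifting_property g LinearMap.id hg
  intro v
  refine ⟨trUp ψ b b' s v, funext fun i => ?_⟩
  rw [trDown_trUp]
  have h : ∀ j : Fin 2, LinearMap.proj i ∘ₗ g ∘ₗ s ∘ₗ LinearMap.single A (fun _ => M) j =
      if i = j then (LinearMap.id : M →ₗ[A] M) else 0 := fun j => by
    refine LinearMap.ext fun x => ?_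
    show (g (s (Pi.single j x))) i = _
    rw [show g (s (Pi.single j x)) = Pi.single j x from LinearMap.congr_fun hs _]
    by_cases hij : i = j
    · subst hij; simp
    · simp [hij]
  rw [Finset.sum_eq_single i (fun j _ hj => by rw [h, if_neg fun e => hj e.symm, tr_zero]; rfl)
    (by simp), h, if_pos rfl, tr_id]
  rfl

/-- An element of the range of a map from a pair, transferred. -/
theorem tr_mem_range_trUp [Module.Free A N] (f : (Fin 2 → M) →ₗ[A] N) (g : N →ₗ[A] N)
    (hg : ∀ y, g y ∈ LinearMap.range f) (v : κ → C) :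
    tr ψ b' b' g v ∈ LinearMap.range (trUp ψ b b' f) := by
  obtain ⟨s, hs⟩ := Module.projective_lifting_property f.rangeRestrict (g.codRestrict _ hg)
    f.surjective_rangeRestrict
  have e : f ∘ₗ s = g := LinearMap.ext fun y =>
    congrArg Subtype.val (LinearMap.congr_fun hs y)
  exact ⟨trDown ψ b b' s v, by rw [trUp_trDown, e]⟩

/-- Injectivity modulo the maximal ideals. -/
theorem not_isUnit_of_trUp [IsLocalRing A] [IsLocalRing C]
    (hres : ∀ u : C, ∃ a : O, ¬ IsUnit (u - algebraMap O C a))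
    (hloc : ∀ a : O, IsUnit (algebraMap O C a) → IsUnit a)
    (f : (Fin 2 → M) →ₗ[A] N)
    (hinj : ∀ x, f x ∈ (maximalIdeal A • ⊤ : Submodule A N) →
      ∀ j, x j ∈ (maximalIdeal A • ⊤ : Submodule A M))
    (v : Fin 2 → ι → C) (hv : ∀ k, ¬ IsUnit (trUp ψ b b' f v k)) (j : Fin 2) (i : ι) :
    ¬ IsUnit (v j i) := by
  choose a ha using fun j i => hres (v j i)
  let w : Fin 2 → ι → C := fun j i => ψ (algebraMap O A (a j i))
  let x : Fin 2 → M := fun j => ∑ i, algebraMap O A (a j i) • b i
  have hw : ∀ j i, v j i - w j i ∈ maximalIdeal C := fun j i => by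
    rw [mem_maximalIdeal, mem_nonunits_iff]
    show ¬ IsUnit (v j i - ψ (algebraMap O A (a j i)))
    rw [ψ.commutes]
    exact ha j i
  have htr : ∀ (T : (ι → C) →ₗ[C] κ → C) (z : ι → C), (∀ i, z i ∈ maximalIdeal C) →
      ∀ k, T z k ∈ maximalIdeal C := fun T z hz k => by
    rw [← Finset.univ_sum_single z, map_sum, Finset.sum_apply]
    refine Ideal.sum_mem _ fun i _ => ?_
    rw [show (Pi.single i (z i) : ι → C) = z i • Pi.single i 1 by
      rw [← Pi.single_smul', smul_eq_mul, mul_one], map_smul, Pi.smul_apply, smul_eq_mul]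
    exact Ideal.mul_mem_right _ _ (hz i)
  have hfx : f x ∈ (maximalIdeal A • ⊤ : Submodule A N) := by
    rw [← b'.sum_repr (f x)]
    refine Submodule.sum_mem _ fun k _ => Submodule.smul_mem_smul ?_ Submodule.mem_top
    rw [mem_maximalIdeal, mem_nonunits_iff]
    intro hu
    have hu' : IsUnit (trUp ψ b b' f w k) := by
      have e : ψ (b'.repr (f x) k) = trUp ψ b b' f w k := by
        rw [trUp_apply, Finset.sum_apply]
        have e1 : f x = ∑ j : Fin 2, (f ∘ₗ LinearMap.single A (fun _ => M) j) (x j) := by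
          conv_lhs => rw [← Finset.univ_sum_single x, map_sum]
          rfl
        rw [e1, map_sum, Finsupp.finsetSum_apply, map_sum]
        exact Finset.sum_congr rfl fun j _ =>
          (congrFun (tr_map ψ b b' (f ∘ₗ LinearMap.single A (fun _ => M) j)
            (fun i => algebraMap O A (a j i))) k).symm
      exact e ▸ hu.map ψ
    have hd : trUp ψ b b' f v k - trUp ψ b b' f w k ∈ maximalIdeal C := by
      rw [trUp_apply, trUp_apply, Finset.sum_apply, Finset.sum_apply, ← Finset.sum_sub_distrib]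
      refine Ideal.sum_mem _ fun j _ => ?_
      rw [← Pi.sub_apply, ← map_sub]
      exact htr _ _ (fun i => hw j i) k
    have h2 : trUp ψ b b' f w k ∈ maximalIdeal C := by
      have := sub_mem ((mem_maximalIdeal _).2 (hv k)) hd
      simpa using this
    exact (mem_maximalIdeal _).1 h2 hu'
  have hx := hinj x hfx j
  have hai : algebraMap O A (a j i) ∈ maximalIdeal A := by
    have h1 : ∀ y ∈ (maximalIdeal A • ⊤ : Submodule A M), b.repr y i ∈ maximalIdeal A := fun y hy =>
      Submodule.smul_induction_on hy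
        (fun s hs m _ => by
          rw [map_smul, Finsupp.smul_apply, smul_eq_mul]; exact Ideal.mul_mem_right _ _ hs)
        fun m n hm hn => by rw [map_add, Finsupp.add_apply]; exact add_mem hm hn
    have h2 := h1 _ hx
    rwa [b.repr_sum_self] at h2
  have hw2 : w j i ∈ maximalIdeal C := by
    rw [mem_maximalIdeal, mem_nonunits_iff]
    show ¬ IsUnit (ψ (algebraMap O A (a j i)))
    rw [ψ.commutes]
    exact fun hu => (mem_maximalIdeal _).1 hai ((hloc _ hu).map (algebraMap O A))
  have := add_mem (hw j i) hw2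
  rw [sub_add_cancel] at this
  exact (mem_maximalIdeal _).1 this

end FLTAgent.ModLift.Tower
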