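import Fermat.Agent.ModLift.Lift.Tower.Mats.Bases
import Fermat.Agent.ModLift.Lift.Tower.Mats.Coef
import Fermat.Agent.ModLift.Lift.Tower.Mats.Exponent
import Fermat.Agent.ModLift.Lift.Tower.Mats.Transfer
import Fermat.Agent.ModLift.Degen.NewInterface

/-!
# One step of the chain in coordinates

The degeneracy maps of one step, in bases and modulo a power of the maximal ideal of the power
series, keep their relations with the two actions.
-/

set_option autoImplicit false
set_option linter.unusedSectionVars false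
set_option linter.style.haveILetI false

noncomputable section

set_option synthInstance.maxHeartbeats 400000
set_option maxHeartbeats 1000000

open IsLocalRing

namespace FLTAgent.ModLift.Tower

open FLTAgent.Lowering

variable {p : ℕ} [Fact p.Prime] {O : Type} [CommRing O] [IsDomain O] [IsDiscreteValuationRing O]

theorem nontrivial_cMod {r k : ℕ} (hk : 0 < k) : Nontrivial (CMod O r k) :=
  Ideal.Quotient.nontrivial_iff.2 fun h =>
    (maximalIdeal.isMaximal (MvPowerSeries (Fin r) O)).ne_top
      (top_le_iff.1 (h ▸ Ideal.pow_le_self hk.ne'))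

theorem isLocalRing_cMod {r k : ℕ} (hk : 0 < k) : IsLocalRing (CMod O r k) :=
  haveI := nontrivial_cMod (O := O) (r := r) hk
  IsLocalRing.of_surjective' (Ideal.Quotient.mk _) Ideal.Quotient.mk_surjective

theorem exists_sub_not_isUnit {r k : ℕ} (hk : 0 < k) (u : CMod O r k) :
    ∃ a : O, ¬ IsUnit (u - algebraMap O (CMod O r k) a) := by
  obtain ⟨b, rfl⟩ := Ideal.Quotient.mk_surjective u
  refine ⟨MvPowerSeries.constantCoeff b, fun hu => ?_⟩
  haveI : Nontrivial (O ⧸ maximalIdeal O ^ k) :=
    Ideal.Quotient.nontrivial_iff.2 fun h =>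
      (maximalIdeal.isMaximal O).ne_top (top_le_iff.1 (h ▸ Ideal.pow_le_self hk.ne'))
  have h1 := hu.map (toConst (O := O) r k)
  rw [map_sub, show toConst (O := O) r k (algebraMap O (CMod O r k) (MvPowerSeries.constantCoeff b)) =
      Ideal.Quotient.mk _ (MvPowerSeries.constantCoeff (MvPowerSeries.C (σ := Fin r)
        (MvPowerSeries.constantCoeff b))) from rfl, MvPowerSeries.constantCoeff_C,
    show toConst (O := O) r k (Ideal.Quotient.mk _ b) =
      Ideal.Quotient.mk _ (MvPowerSeries.constantCoeff b) from rfl, sub_self] at h1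
  exact not_isUnit_zero h1

theorem isUnit_of_algebraMap_cMod {r k : ℕ} (hk : 0 < k) {a : O}
    (h : IsUnit (algebraMap O (CMod O r k) a)) : IsUnit a := by
  by_contra ha
  haveI : Nontrivial (O ⧸ maximalIdeal O ^ k) :=
    Ideal.Quotient.nontrivial_iff.2 fun h =>
      (maximalIdeal.isMaximal O).ne_top (top_le_iff.1 (h ▸ Ideal.pow_le_self hk.ne'))
  have h1 := (h.map (toConst (O := O) r k)).pow k
  rw [show toConst (O := O) r k (algebraMap O (CMod O r k) a) =
      Ideal.Quotient.mk _ (MvPowerSeries.constantCoeff (MvPowerSeries.C (σ := Fin r) a)) from rfl,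
    MvPowerSeries.constantCoeff_C, ← map_pow,
    Ideal.Quotient.eq_zero_iff_mem.2 (Ideal.pow_mem_pow ((mem_maximalIdeal a).2 ha) k)] at h1
  exact not_isUnit_zero h1

variable [Algebra ℤ_[p] O] [Module.Finite ℤ_[p] O] [CharZero O] {S S' : Setup p O} {ℓ : ℕ}

/-- The matrices of an element over the coefficients modulo a power. -/
def actMat (X : Aux S) {r k : ℕ} (ψ : X.Coef →ₐ[O] CMod O r k) (e : Bool) {d : ℕ}
    (b : Module.Basis (Fin d) X.Coef (X.Mod e)) :
    X.TR →ₐ[O] Matrix (Fin d) (Fin d) (CMod O r k) :=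
  ψ.mapMatrix.comp (matHom X e b)

theorem actMat_mulVec (X : Aux S) {r k : ℕ} (ψ : X.Coef →ₐ[O] CMod O r k) (e : Bool) {d : ℕ}
    (b : Module.Basis (Fin d) X.Coef (X.Mod e)) (t : X.TR) (v : Fin d → CMod O r k) :
    (actMat X ψ e b t).mulVec v = tr ψ b b (X.actTR e t) v := rfl

variable {h : Raise S S' ℓ} {X : Aux S} (D : Degen h X) {r k : ℕ} (ψ : X.Coef →ₐ[O] CMod O r k)
  {d d' : ℕ} (b : ∀ e, Module.Basis (Fin d) X.Coef (X.Mod e))
  (b' : ∀ e, Module.Basis (Fin d') X.Coef ((h.up X).Mod e))

/-- The matrices on the upper module, over the coefficients of the lower one. -/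
def upMat (e : Bool) (t : (h.up X).TR) : Matrix (Fin d') (Fin d') (CMod O r k) :=
  (LinearMap.toMatrix (b' e) (b' e) ((h.up X).actTR e t)).map ψ

theorem upMat_mulVec (e : Bool) (t : (h.up X).TR) (v : Fin d' → CMod O r k) :
    (upMat ψ b' e t).mulVec v =
      tr ψ (b' e) (b' e) (show Module.End X.Coef ((h.up X).Mod e) from (h.up X).actTR e t) v := rfl

theorem step_up_act (e : Bool) (t : (h.up X).TR) (v : Fin 2 → Fin d → CMod O r k) :
    trUp ψ (b e) (b' e) (D.up e) (fun i => (actMat X ψ e (b e) (D.resT t)).mulVec (v i)) =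
      (upMat ψ b' e t).mulVec (trUp ψ (b e) (b' e) (D.up e) v) := by
  rw [upMat_mulVec, trUp_apply, trUp_apply, map_sum]
  refine Finset.sum_congr rfl fun j _ => ?_
  rw [actMat_mulVec, ← LinearMap.comp_apply, ← tr_comp, ← LinearMap.comp_apply, ← tr_comp]
  refine congrArg (fun f => tr ψ (b e) (b' e) f (v j)) (LinearMap.ext fun x => ?_)
  show D.up e (Pi.single j (X.actTR e (D.resT t) x)) = _
  rw [show Pi.single j (X.actTR e (D.resT t) x) =
      (fun i => X.actTR e (D.resT t) ((Pi.single j x : Fin 2 → X.Mod e) i)) from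
    funext fun i => (Pi.apply_single (fun _ => X.actTR e (D.resT t))
      (fun _ => map_zero _) j x i).symm, D.up_act]
  rfl

theorem step_down_act (e : Bool) (t : (h.up X).TR) (v : Fin d' → CMod O r k) :
    trDown ψ (b e) (b' e) (D.down e) ((upMat ψ b' e t).mulVec v) =
      fun i => (actMat X ψ e (b e) (D.resT t)).mulVec (trDown ψ (b e) (b' e) (D.down e) v i) := by
  funext i
  rw [upMat_mulVec, trDown_apply, trDown_apply, actMat_mulVec, ← LinearMap.comp_apply, ← tr_comp,
    ← LinearMap.comp_apply, ← tr_comp]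
  refine congrArg (fun f => tr ψ (b' e) (b e) f v) (LinearMap.ext fun y => ?_)
  exact congrFun (D.down_act e t y) i

theorem step_up_inj (hk : 0 < k) (e : Bool) (v : Fin 2 → Fin d → CMod O r k)
    (hv : ∀ u, ¬ IsUnit (trUp ψ (b e) (b' e) (D.up e) v u)) (j : Fin 2) (i : Fin d) :
    ¬ IsUnit (v j i) :=
  haveI := isLocalRing_cMod (O := O) (r := r) hk
  not_isUnit_of_trUp ψ (b e) (b' e) (exists_sub_not_isUnit hk)
    (fun _ => isUnit_of_algebraMap_cMod hk) (D.up e) (D.up_inj e) v hv j i

theorem step_down_surj (e : Bool) :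
    Function.Surjective (trDown ψ (b e) (b' e) (D.down e)) :=
  haveI := (X.mod_finite_free e).1
  haveI := (X.mod_finite_free e).2
  trDown_surjective ψ (b e) (b' e) (D.down_surj e)

theorem step_comp (e : Bool) (t : X.TR) (ht : D.hecke e = X.actTR e t)
    (v : Fin 2 → Fin d → CMod O r k) (i : Fin 2) :
    trDown ψ (b e) (b' e) (D.down e) (trUp ψ (b e) (b' e) (D.up e) v) i =
      ((ℓ : CMod O r k) + 1) • v i + (actMat X ψ e (b e) t).mulVec (v (1 - i)) := by
  rw [trDown_trUp, actMat_mulVec, ← ht]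
  have hid : ((ℓ : CMod O r k) + 1) • v i =
      tr ψ (b e) (b e) (((ℓ : X.Coef) + 1) • LinearMap.id) (v i) := by
    rw [tr_smul_id, map_add, map_natCast, map_one]
    rfl
  have hc : ∀ i j : Fin 2, LinearMap.proj i ∘ₗ D.down e ∘ₗ D.up e ∘ₗ
      LinearMap.single X.Coef (fun _ => X.Mod e) j =
        if i = j then ((ℓ : X.Coef) + 1) • LinearMap.id else D.hecke e := fun i j => by
    refine LinearMap.ext fun x => ?_
    show D.down e (D.up e (Pi.single j x)) i = _
    rw [D.comp]
    fin_cases i <;> fin_cases j <;> simp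
  rw [hid, Fin.sum_univ_two, hc, hc]
  fin_cases i
  · simp
  · simp [add_comm]

theorem step_range (e : Bool) (f : (h.up X).TR) {n : ℕ}
    (hf : ∀ y, ((h.up X).actTR e f ^ n) y ∈ LinearMap.range (D.up e)) {E : ℕ} (hE : d' ≤ E)
    (v : Fin d' → CMod O r k) :
    (upMat ψ b' e (f ^ E)).mulVec v ∈ LinearMap.range (trUp ψ (b e) (b' e) (D.up e)) := by
  haveI := isReduced_monoidAlgebra O X.Dia
  haveI : Module.Free X.Coef ((h.up X).Mod e) := Module.Free.of_basis (b' e)
  rw [upMat_mulVec]
  refine tr_mem_range_trUp ψ (b e) (b' e) (D.up e) _ ?_ v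
  show ∀ y, (h.up X).actTR e (f ^ E) y ∈ LinearMap.range (D.up e)
  let g : Module.End X.Coef ((h.up X).Mod e) := (h.up X).actTR e f
  have hpow : ∀ j y, (h.up X).actTR e (f ^ j) y = (g ^ j) y := fun j => by
    intro y
    rw [map_pow]
    induction j generalizing y with
    | zero => rfl
    | succ j ih =>
      rw [pow_succ, pow_succ, Module.End.mul_apply, Module.End.mul_apply, ← ih]
      rfl
  intro y
  rw [hpow]
  refine pow_card_mem_range (Pi.basis fun _ : Fin 2 => b e) (b' e) (D.up e) (fun x hx => ?_) g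
    (fun x => ⟨fun i => X.actTR e (D.resT f) (x i), D.up_act e f x⟩) (n := n) (fun z => ?_)
    ((Fintype.card_fin d').trans_le hE) y
  · rw [← Finset.univ_sum_single x]
    refine Submodule.sum_mem _ fun j _ => ?_
    have h1 : (maximalIdeal X.Coef • ⊤ : Submodule X.Coef (X.Mod e)) ≤ Submodule.comap
        (LinearMap.single X.Coef (fun _ => X.Mod e) j) (maximalIdeal X.Coef • ⊤) := by
      rw [← Submodule.map_le_iff_le_comap, Submodule.map_smul'']
      exact Submodule.smul_mono le_rfl le_top
    exact h1 (D.up_inj e x hx j)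
  · rw [← hpow, map_pow]
    exact hf z

end FLTAgent.ModLift.Tower
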