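import Fermat.Agent.ModLift.Lift.Tower.Mats.Base
import Fermat.Agent.ModLift.Lift.Tower.Mats.Maps
import Fermat.Agent.ModLift.Lift.Tower.Mats.Local
import Fermat.Agent.ModLift.Lift.Tower.Mats.Step
import Fermat.Agent.Lowering.P6.Inertia

/-!
# The modules along the chain of levels, in matrices

`targetMats_of`: from the degeneracy maps with their new part, the data of the chain modulo every
power of the maximal ideal.
-/

set_option autoImplicit false
set_option linter.unusedSectionVars false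
set_option linter.style.haveILetI false

noncomputable section

set_option synthInstance.maxHeartbeats 400000
set_option maxHeartbeats 1000000

open IsLocalRing

namespace FLTAgent.ModLift

open FLTAgent.Lowering
open FLTAgent.TWPrimes (IsAux)

local notation "LL" => AlgebraicClosure ℚ
local notation "GG" => (AlgebraicClosure ℚ ≃ₐ[ℚ] AlgebraicClosure ℚ)
local notation "VS" => ValuationSubring (AlgebraicClosure ℚ)
local notation "M2" => Matrix (Fin 2) (Fin 2)

namespace Tower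

variable {p : ℕ} [Fact p.Prime] {O : Type} [CommRing O] [IsDomain O] [IsDiscreteValuationRing O]
  [Algebra ℤ_[p] O] [Module.Finite ℤ_[p] O] [CharZero O] {S : Setup p O} (X : Aux S)

/-- A quotient root downstairs from the relation modulo the kernel. -/
theorem SameTraces.isQuotientRoot {R' : Type} [CommRing R'] [Algebra O R'] {π : R' →ₐ[O] X.TR}
    {ρ' : GG →* GL (Fin 2) R'} (h : SameTraces X π ρ') {V : VS} {φ : GG} {z z' : R'}
    (hz : z * z' = 1)
    (hrel : ∀ σ ∈ V.inertiaSubgroupIn ℚ, ∀ u w, π ((((ρ' σ : M2 R') -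
      Matrix.det (ρ' σ : M2 R') • 1) * ((ρ' φ : M2 R') - z • 1)) u w) = 0) :
    IsQuotientRoot (repTR X) V φ (π z) (π z') := by
  refine ⟨by rw [← map_mul, hz, map_one], fun σ hσ => ?_⟩
  obtain ⟨P, hP⟩ := h.conj
  set Pm : M2 X.TR := (P : M2 X.TR)
  set Pi' : M2 X.TR := ((P⁻¹ : GL (Fin 2) X.TR) : M2 X.TR)
  have hsm : ∀ a : R', π.toRingHom.mapMatrix (a • (1 : M2 R')) = π a • (1 : M2 X.TR) := fun a => by
    ext i j
    by_cases hij : i = j
    · subst hij; simp
    · simp [hij]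
  have e : ∀ (g : GG) (a : R'), π.toRingHom.mapMatrix ((ρ' g : M2 R') - a • 1) =
      Pm * ((repTR X g : M2 X.TR) - π a • 1) * Pi' := fun g a => by
    rw [map_sub, hsm, hP, mul_sub, sub_mul, mul_smul_comm, mul_one, smul_mul_assoc, Units.mul_inv,
      Units.val_mul, Units.val_mul]
  have h0 : π.toRingHom.mapMatrix (((ρ' σ : M2 R') - Matrix.det (ρ' σ : M2 R') • 1) *
      ((ρ' φ : M2 R') - z • 1)) = 0 := Matrix.ext fun u w => hrel σ hσ u w
  rw [map_mul, e, e, h.det, mul_assoc, ← mul_assoc Pi', ← mul_assoc Pi', Units.inv_mul, one_mul,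
    ← mul_assoc, mul_assoc Pm] at h0
  have h1 := congrArg (fun M => Pi' * M * Pm) h0
  simp only [mul_zero, zero_mul] at h1
  rw [← mul_assoc Pi', ← mul_assoc Pi', Units.inv_mul, one_mul, mul_assoc, Units.inv_mul,
    mul_one] at h1
  exact h1

variable {r k : ℕ} (ψ : X.Coef →ₐ[O] CMod O r k)

/-- The relation of an inertia element at an auxiliary prime, in coordinates. -/
theorem inertia_mat_eq {d : ℕ} (e : Bool) (b : Module.Basis (Fin d) X.Coef (X.Mod e)) {q : ℕ}
    (hq : q ∈ X.Q) {V : VS} (hV : V.LiesOverPrime q) {σ : GG}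
    (hσ : σ ∈ V.inertiaSubgroupIn ℚ) {c : (ZMod q)ˣ}
    (hc : ∀ ζ : LL, ζ ^ q = 1 → σ ζ = ζ ^ (c : ZMod q).val) {w : CMod O r k}
    (hw : ψ (MonoidAlgebra.of O X.Dia (X.halfAt q hq c) +
      MonoidAlgebra.of O X.Dia (X.halfAt q hq c)⁻¹) - 2 = w) :
    (actMat X ψ e b (trGL (repTR X σ) - 2) - algebraMap (CMod O r k) _ w) ^ inertiaExp = 0 := by
  have h := (X.levelData X.geometry).inertia_Q q hq V hV σ hσ c hc e
  set hh : X.Coef := MonoidAlgebra.of O X.Dia (X.halfAt q hq c) +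
    MonoidAlgebra.of O X.Dia (X.halfAt q hq c)⁻¹
  let T : Module.End X.Coef (X.Mod e) →+* Matrix (Fin d) (Fin d) (CMod O r k) :=
    ψ.toRingHom.mapMatrix.comp (LinearMap.toMatrixAlgEquiv b).toRingEquiv.toRingHom
  have hT : ∀ a : X.Coef, T (a • 1) = algebraMap (CMod O r k) _ (ψ a) := by
    intro a
    show ψ.toRingHom.mapMatrix (LinearMap.toMatrixAlgEquiv b (a • 1)) = _
    rw [map_smul, map_one, Matrix.algebraMap_eq_diagonal]
    ext i j
    by_cases hij : i = j
    · subst hij; simp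
    · simp [Matrix.one_apply_ne hij, Matrix.diagonal_apply_ne _ hij]
  have h2 : (T (X.actTR e (trGL (repTR X σ))) - T (hh • 1)) ^ inertiaExp = 0 := by
    rw [← map_sub, ← map_pow]
    exact (congrArg T h).trans (map_zero T)
  rw [hT] at h2
  rw [map_sub, map_ofNat, ← hw, map_sub, map_ofNat, sub_sub_sub_cancel_right]
  exact h2

section Chain

variable {W : WeierstrassCurve ℤ} {hΔ : W.Δ ≠ 0} [Algebra (ZMod p) (ResidueField O)]
  (c : Ctx W hΔ p O) {n : ℕ} (Q : Finset Nat.Primes)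
  (hQ : ∀ q ∈ Q, q ∉ c.S ∧ IsAux c.D n q) (hnew : TargetNewPart)

/-- The algebra of the whole chain. -/
abbrev ChainAlg : Type := (c.aux Q hQ (Fin.last _)).TR

/-- The representation of the whole chain. -/
def chainRep : GG →* GL (Fin 2) (ChainAlg c Q hQ) := liftRep (c.aux Q hQ (Fin.last _))

/-- The chosen degeneracy maps of a step. -/
def stepDegen (j : Fin c.m) : Degen (c.raise j) (c.aux Q hQ j.castSucc) :=
  (hnew p O (c.setup j.castSucc) (c.setup j.succ) (c.q j) (c.raise j) (c.aux Q hQ j.castSucc)).choose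

theorem stepDegen_newPart (j : Fin c.m) : NewPart (stepDegen c Q hQ hnew j) :=
  (hnew p O (c.setup j.castSucc) (c.setup j.succ) (c.q j) (c.raise j)
    (c.aux Q hQ j.castSucc)).choose_spec

theorem stepMap_same (j : Fin (c.m + 1)) :
    SameTraces (c.aux Q hQ j) (stepMap c Q hQ hnew j) (chainRep c Q hQ) :=
  stepMap_sameTraces c Q hQ hnew j

theorem stepMap_ker_last : RingHom.ker (stepMap c Q hQ hnew (Fin.last _)) = ⊥ := by
  rw [stepMap_last]
  exact (RingHom.injective_iff_ker_eq_bot (AlgHom.id O (ChainAlg c Q hQ))).1 Function.injective_id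

theorem stepMap_ker_ne (j : Fin (c.m + 1)) : RingHom.ker (stepMap c Q hQ hnew j) ≠ ⊤ := fun h => by
  haveI := (c.aux Q hQ j).isLocalRing_TR
  have h1 : (1 : ChainAlg c Q hQ) ∈ RingHom.ker (stepMap c Q hQ hnew j) := h ▸ Submodule.mem_top
  rw [RingHom.mem_ker, map_one] at h1
  exact one_ne_zero h1

theorem ker_le_ker_act (j : Fin (c.m + 1)) (e : Bool) :
    RingHom.ker (stepMap c Q hQ hnew j) ≤
      RingHom.ker (((c.aux Q hQ j).actTR e).comp (stepMap c Q hQ hnew j)) := fun x hx =>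
  RingHom.mem_ker.2 (by rw [AlgHom.comp_apply, RingHom.mem_ker.1 hx, map_zero])

theorem ker_act_inf_le (j : Fin (c.m + 1)) :
    RingHom.ker (((c.aux Q hQ j).actTR false).comp (stepMap c Q hQ hnew j)) ⊓
      RingHom.ker (((c.aux Q hQ j).actTR true).comp (stepMap c Q hQ hnew j)) ≤
      RingHom.ker (stepMap c Q hQ hnew j) := fun x hx =>
  RingHom.mem_ker.2 ((c.aux Q hQ j).actTR_faithful _ fun e => by
    cases e
    · exact RingHom.mem_ker.1 hx.1
    · exact RingHom.mem_ker.1 hx.2)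

theorem ker_act_saturated (j : Fin (c.m + 1)) (e : Bool) (a : O) (ha : a ≠ 0)
    (x : ChainAlg c Q hQ)
    (hx : algebraMap O (ChainAlg c Q hQ) a * x ∈
      RingHom.ker (((c.aux Q hQ j).actTR e).comp (stepMap c Q hQ hnew j))) :
    x ∈ RingHom.ker (((c.aux Q hQ j).actTR e).comp (stepMap c Q hQ hnew j)) := by
  refine RingHom.mem_ker.2 (LinearMap.ext fun m => ?_)
  haveI := free_mod (c.aux Q hQ j) e
  have h1 : (c.aux Q hQ j).actTR e
      (stepMap c Q hQ hnew j (algebraMap O (ChainAlg c Q hQ) a * x)) = 0 :=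
    RingHom.mem_ker.1 hx
  rw [map_mul, map_mul, AlgHom.commutes, AlgHom.commutes] at h1
  have h2 := LinearMap.congr_fun h1 m
  rw [Module.End.mul_apply, Module.algebraMap_end_apply] at h2
  exact (smul_eq_zero.1 h2).resolve_left ha

theorem not_dvd_aux_level {j : Fin (c.m + 1)} {l : Nat.Primes} (hlQ : l ∉ Q)
    (hlev : ¬ (l : ℕ) ∣ c.lev j) : ¬ (l : ℕ) ∣ (c.aux Q hQ j).level := by
  intro h
  rcases l.2.dvd_mul.1 h with h | h
  · exact hlev h
  · obtain ⟨a, ha, hla⟩ := (Nat.Prime.prime l.2).exists_mem_finset_dvd h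
    obtain ⟨hap, haQ⟩ := Ctx.mem_natQ.1 ha
    refine hlQ ?_
    have e : l = ⟨a, hap⟩ := Subtype.ext ((Nat.prime_dvd_prime_iff_eq l.2 hap).1 hla)
    rw [e]
    exact haQ

theorem level_conds : ∀ q : Nat.Primes, q ∉ c.S ∪ Q →
    (q : ℕ) ≠ p ∧ ¬ (q : ℕ) ∣ (c.aux Q hQ (Fin.last _)).level := by
  intro q hq
  rw [Finset.mem_union, not_or] at hq
  have hqb : (q : ℕ) ∉ c.S0.bad := fun h => hq.1 (c.mem_S.2 h)
  exact ⟨fun h => hqb (h ▸ c.S0.p_mem),
    not_dvd_aux_level c Q hQ hq.2 fun h => hqb (c.mem_bad_of_dvd le_rfl q.2 h)⟩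

theorem chain_res_trace (σ : GG) :
    (c.aux Q hQ (Fin.last _)).resTR (Matrix.trace (chainRep c Q hQ σ : M2 (ChainAlg c Q hQ))) =
      trGL (repTR (Aux.empty (c.setup (Fin.last _))) σ) := by
  rw [chainRep, liftRep_trace, resTR_trace_rep]

variable {r k : ℕ}
  (ψ : ∀ j : Fin (c.m + 1), (c.aux Q hQ j).Coef →ₐ[O] CMod O r k)
  (bs : ∀ j e, Module.Basis (Fin (c.rank j)) (c.aux Q hQ j).Coef ((c.aux Q hQ j).Mod e))

/-- The action of the algebra of the chain on a node, in coordinates. -/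
def chainAct (j : Fin (c.m + 1)) (e : Bool) :
    ChainAlg c Q hQ →ₐ[O] Matrix (Fin (c.rank j)) (Fin (c.rank j)) (CMod O r k) :=
  (actMat (c.aux Q hQ j) (ψ j) e (bs j e)).comp (stepMap c Q hQ hnew j)

theorem chainAct_eq (j : Fin (c.m + 1)) (e : Bool) (x : ChainAlg c Q hQ) :
    chainAct c Q hQ hnew ψ bs j e x =
      actMat (c.aux Q hQ j) (ψ j) e (bs j e) (stepMap c Q hQ hnew j x) := rfl

theorem chainAct_eq_zero (j : Fin (c.m + 1)) (e : Bool) (x : ChainAlg c Q hQ)
    (hx : x ∈ RingHom.ker (((c.aux Q hQ j).actTR e).comp (stepMap c Q hQ hnew j))) :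
    chainAct c Q hQ hnew ψ bs j e x = 0 := by
  show (ψ j).mapMatrix (LinearMap.toMatrixAlgEquiv (bs j e)
    ((c.aux Q hQ j).actTR e (stepMap c Q hQ hnew j x))) = 0
  rw [show (c.aux Q hQ j).actTR e (stepMap c Q hQ hnew j x) = 0 from RingHom.mem_ker.1 hx,
    map_zero, map_zero]

variable (hψ : ∀ (j : Fin (c.m + 1)) a, ∃ b : MvPowerSeries (Fin r) O,
    ψ j a = Ideal.Quotient.mk _ b ∧
      MvPowerSeries.constantCoeff b - (c.aux Q hQ j).aug a ∈ maximalIdeal O ^ k)
  (hbs : ∀ j e i, (c.aux Q hQ j).coinv e (bs j e i) = c.baseBasis j e i)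

include hψ hbs in
theorem chainAct_base (j : Fin (c.m + 1)) (e : Bool) (x : ChainAlg c Q hQ) :
    ∀ u v, ∃ b : MvPowerSeries (Fin r) O,
      chainAct c Q hQ hnew ψ bs j e x u v = Ideal.Quotient.mk _ b ∧
        MvPowerSeries.constantCoeff b - baseMat e (c.baseBasis j e)
          ((c.aux Q hQ j).resTR (stepMap c Q hQ hnew j x)) u v ∈ maximalIdeal O ^ k := by
  intro u v
  obtain ⟨b, hb, hb'⟩ := hψ j (matHom (c.aux Q hQ j) e (bs j e) (stepMap c Q hQ hnew j x) u v)
  refine ⟨b, hb, ?_⟩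
  rw [baseMat_apply, ← aug_matHom (c.aux Q hQ j) e (bs j e) _ (hbs j e)
    (stepMap c Q hQ hnew j x) u v]
  exact hb'

include hψ hbs in
theorem chainAct_base_last (x : ChainAlg c Q hQ) :
    ∀ u v, ∃ b : MvPowerSeries (Fin r) O,
      chainAct c Q hQ hnew ψ bs (Fin.last _) false x u v = Ideal.Quotient.mk _ b ∧
        MvPowerSeries.constantCoeff b - baseMat false (c.baseBasis (Fin.last _) false)
          ((c.aux Q hQ (Fin.last _)).resTR x) u v ∈ maximalIdeal O ^ k := by
  intro u v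
  obtain ⟨b, hb, hb'⟩ := chainAct_base c Q hQ hnew ψ bs hψ hbs (Fin.last _) false x u v
  refine ⟨b, hb, ?_⟩
  rwa [DFunLike.congr_fun (stepMap_last c Q hQ hnew) x] at hb'

theorem chainAct_congr
    (hcg : ∀ j i, (c.aux Q hQ j).congrEquiv (Submodule.Quotient.mk (bs j false i)) =
      Submodule.Quotient.mk (bs j true i))
    (j : Fin (c.m + 1)) (x : ChainAlg c Q hQ) (u v : Fin (c.rank j)) :
    chainAct c Q hQ hnew ψ bs j false x u v - chainAct c Q hQ hnew ψ bs j true x u v ∈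
      (maximalIdeal O).map (algebraMap O (CMod O r k)) := by
  have h := Ideal.mem_map_of_mem (ψ j)
    (matHom_congr (c.aux Q hQ j) (bs j) (hcg j) (stepMap c Q hQ hnew j x) u v)
  rw [← Ideal.map_coe, Ideal.map_map, AlgHom.comp_algebraMap, map_sub] at h
  exact h

/-- The bases of the upper node of a step, over the coefficients of the lower one. -/
def upBasis (j : Fin c.m) (e : Bool) : Module.Basis (Fin (c.rank j.succ))
    (c.aux Q hQ j.castSucc).Coef (((c.raise j).up (c.aux Q hQ j.castSucc)).Mod e) :=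
  bs j.succ e

/-- The first degeneracy map of a step in coordinates. -/
def chainUp (j : Fin c.m) (e : Bool) :
    (Fin 2 → Fin (c.rank j.castSucc) → CMod O r k) →ₗ[CMod O r k]
      Fin (c.rank j.succ) → CMod O r k :=
  trUp (ψ j.castSucc) (bs j.castSucc e) (upBasis c Q hQ bs j e)
    ((stepDegen c Q hQ hnew j).up e)

/-- The second degeneracy map of a step in coordinates. -/
def chainDown (j : Fin c.m) (e : Bool) :
    (Fin (c.rank j.succ) → CMod O r k) →ₗ[CMod O r k]
      Fin 2 → Fin (c.rank j.castSucc) → CMod O r k :=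
  trDown (ψ j.castSucc) (bs j.castSucc e) (upBasis c Q hQ bs j e)
    ((stepDegen c Q hQ hnew j).down e)

variable (hψc : ∀ (j : Fin c.m), ψ j.succ = ψ j.castSucc)

include hψc in
theorem chainAct_succ (j : Fin c.m) (e : Bool) (x : ChainAlg c Q hQ) :
    chainAct c Q hQ hnew ψ bs j.succ e x =
      upMat (h := c.raise j) (X := c.aux Q hQ j.castSucc) (ψ j.castSucc)
        (upBasis c Q hQ bs j) e (stepMap c Q hQ hnew j.succ x) := by
  rw [chainAct_eq, hψc]
  rfl

include hψc in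
theorem chainUp_act (j : Fin c.m) (e : Bool) (x : ChainAlg c Q hQ) (v) :
    chainUp c Q hQ hnew ψ bs j e
        (fun b => (chainAct c Q hQ hnew ψ bs j.castSucc e x).mulVec (v b)) =
      (chainAct c Q hQ hnew ψ bs j.succ e x).mulVec (chainUp c Q hQ hnew ψ bs j e v) := by
  rw [chainAct_succ c Q hQ hnew ψ bs hψc, chainAct_eq,
    stepMap_castSucc c Q hQ hnew j (stepDegen c Q hQ hnew j) x]
  exact step_up_act _ (ψ j.castSucc) (bs j.castSucc) (upBasis c Q hQ bs j) e _ v

include hψc in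
theorem chainDown_act (j : Fin c.m) (e : Bool) (x : ChainAlg c Q hQ) (v) :
    chainDown c Q hQ hnew ψ bs j e ((chainAct c Q hQ hnew ψ bs j.succ e x).mulVec v) =
      fun b => (chainAct c Q hQ hnew ψ bs j.castSucc e x).mulVec
        (chainDown c Q hQ hnew ψ bs j e v b) := by
  rw [chainAct_succ c Q hQ hnew ψ bs hψc, chainAct_eq,
    stepMap_castSucc c Q hQ hnew j (stepDegen c Q hQ hnew j) x]
  exact step_down_act _ (ψ j.castSucc) (bs j.castSucc) (upBasis c Q hQ bs j) e _ v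

theorem chain_comp (j : Fin c.m) (e : Bool) (hq : c.q j ≠ p) {V : VS}
    (hV : V.LiesOverPrime (c.q j)) {φ : GG} (hφ : V.IsFrobeniusAt φ (c.q j)) (v) (b : Fin 2) :
    chainDown c Q hQ hnew ψ bs j e (chainUp c Q hQ hnew ψ bs j e v) b =
      ((c.q j : CMod O r k) + 1) • v b +
        (chainAct c Q hQ hnew ψ bs j.castSucc e
          (Matrix.trace (chainRep c Q hQ φ : M2 (ChainAlg c Q hQ)))).mulVec (v (1 - b)) := by
  rw [chainAct_eq, stepMap_same c Q hQ hnew j.castSucc φ]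
  exact step_comp _ (ψ j.castSucc) (bs j.castSucc) (upBasis c Q hQ bs j) e _
    ((stepDegen c Q hQ hnew j).hecke_frob hq V hV φ hφ e) v b

include hψc in
theorem chain_old_range (j : Fin c.m) (e : Bool) (hq : c.q j ≠ p) {V : VS}
    (hV : V.LiesOverPrime (c.q j)) {φ : GG} (hφ : V.IsFrobeniusAt φ (c.q j)) (v) :
    (chainAct c Q hQ hnew ψ bs j.succ e
      (Matrix.trace (chainRep c Q hQ φ : M2 (ChainAlg c Q hQ)) ^ 2 -
        ((c.q j : ChainAlg c Q hQ) + 1) ^ 2) ^ c.towerBase.expo).mulVec v ∈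
      LinearMap.range (chainUp c Q hQ hnew ψ bs j e) := by
  obtain ⟨m, hm⟩ := (stepDegen_newPart c Q hQ hnew j).away hq V hV φ hφ e
  rw [← map_pow, chainAct_succ c Q hQ hnew ψ bs hψc, map_pow, map_sub, map_pow, map_pow, map_add,
    map_natCast, map_one, stepMap_same c Q hQ hnew j.succ φ]
  exact step_range _ (ψ j.castSucc) (bs j.castSucc) (upBasis c Q hQ bs j) e _ hm
    (c.rank_le_expo j.succ) v

include hψc in
theorem chain_comp_p (j : Fin c.m) (e : Bool) (hq : c.q j = p) {V : VS} (hV : V.LiesOverPrime p)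
    {φ : GG} (hφ : V.IsFrobeniusAt φ p) (z z' : ChainAlg c Q hQ) (hzz : z * z' = 1)
    (hrel : ∀ σ ∈ V.inertiaSubgroupIn ℚ, ∀ u w,
      (((chainRep c Q hQ σ : M2 (ChainAlg c Q hQ)) -
          Matrix.det (chainRep c Q hQ σ : M2 (ChainAlg c Q hQ)) • 1) *
        ((chainRep c Q hQ φ : M2 (ChainAlg c Q hQ)) - z • 1)) u w ∈
          RingHom.ker (stepMap c Q hQ hnew j.succ)) :
    (∀ v b, chainDown c Q hQ hnew ψ bs j e (chainUp c Q hQ hnew ψ bs j e v) b =
        ((p : CMod O r k) + 1) • v b +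
          (chainAct c Q hQ hnew ψ bs j.castSucc e
            (z + (p : ChainAlg c Q hQ) * z')).mulVec (v (1 - b))) ∧
      ∀ v, (chainAct c Q hQ hnew ψ bs j.succ e (z ^ 2 - 1) ^ c.towerBase.expo).mulVec v ∈
        LinearMap.range (chainUp c Q hQ hnew ψ bs j e) := by
  have hroot := SameTraces.isQuotientRoot (c.aux Q hQ j.succ) (stepMap_same c Q hQ hnew j.succ)
    (V := V) (φ := φ) hzz fun σ hσ u w => RingHom.mem_ker.1 (hrel σ hσ u w)
  refine ⟨fun v b => ?_, fun v => ?_⟩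
  · have hh := (stepDegen_newPart c Q hQ hnew j).hecke_p hq V hV (c.exists_line (by simpa only [hq] using (c.q_spec j j.2).1) hV) φ hφ _ _ hroot e
    have h2 := step_comp _ (ψ j.castSucc) (bs j.castSucc) (upBasis c Q hQ bs j) e _ hh v b
    rw [chainAct_eq, stepMap_castSucc c Q hQ hnew j (stepDegen c Q hQ hnew j), map_add, map_mul,
      map_natCast]
    have h3 : ((c.q j : ℕ) : CMod O r k) = (p : CMod O r k) := by rw [hq]
    rw [h3] at h2
    exact h2
  · obtain ⟨m, hm⟩ := (stepDegen_newPart c Q hQ hnew j).at_p hq V hV (c.exists_line (by simpa only [hq] using (c.q_spec j j.2).1) hV) φ hφ _ _ hroot e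
    rw [← map_pow, chainAct_succ c Q hQ hnew ψ bs hψc, map_pow, map_sub, map_pow, map_one]
    exact step_range _ (ψ j.castSucc) (bs j.castSucc) (upBasis c Q hQ bs j) e _ hm
      (c.rank_le_expo j.succ) v

end Chain

end Tower

open Tower

/-- **The modules along the chain of levels, in matrices**, from the degeneracy maps with their
new part. -/
theorem targetMats_of (hnew : TargetNewPart) : TargetMats := by
  intro W hΔ p _ O _ _ _ _ _ _ _ _ _ c
  refine ⟨c.towerBase, fun r k n hk hkn Q hcard hQ => ?_⟩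
  classical
  -- bases
  have hbs := fun j => exists_bases (c.aux Q hQ j) (c.baseBasis j) (c.baseBasis_congr j)
  choose bs hbsco hbscg using hbs
  -- the coefficient map
  let eQ : Fin r ≃ (c.aux Q hQ (Fin.last _)).Q :=
    (Fintype.equivFinOfCardEq ((Fintype.card_coe (c.aux Q hQ (Fin.last _)).Q).trans
      ((c.aux_card Q hQ (Fin.last _)).trans hcard))).symm
  obtain ⟨cq, ψl, hψ, hψaug⟩ :=
    exists_coefHom (c.aux Q hQ (Fin.last _)) c.p_mem eQ hkn (c.aux_pow_dvd Q hQ _)
  let ψ : ∀ j, (c.aux Q hQ j).Coef →ₐ[O] CMod O r k := fun _ => ψl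
  -- inertia at the auxiliary primes
  have hσq : ∀ i : Fin r, ∃ σ : GG, (∃ q ∈ Q, ∃ V : VS, V.LiesOverPrime (q : ℕ) ∧
      σ ∈ V.inertiaSubgroupIn ℚ) ∧
      ∀ j e, (chainAct c Q hQ hnew ψ bs j e
          (Matrix.trace (chainRep c Q hQ σ : M2 (ChainAlg c Q hQ)) - 2) -
        algebraMap (CMod O r k) _ (Ideal.Quotient.mk _ (twFun O r i))) ^ inertiaExp = 0 := by
    intro i
    set q := ((eQ i : (c.aux Q hQ (Fin.last _)).Q) : ℕ) with hq
    have hqQ : q ∈ (c.aux Q hQ (Fin.last _)).Q := (eQ i).2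
    haveI : Fact q.Prime := ⟨(c.aux Q hQ (Fin.last _)).prime q hqQ⟩
    haveI : NeZero q := ⟨((c.aux Q hQ (Fin.last _)).prime q hqQ).ne_zero⟩
    haveI : NeZero ((q : ℕ) : LL) :=
      ⟨Nat.cast_ne_zero.2 ((c.aux Q hQ (Fin.last _)).prime q hqQ).ne_zero⟩
    obtain ⟨z, hz⟩ := HasEnoughRootsOfUnity.exists_primitiveRoot LL q
    obtain ⟨V, hV⟩ := Frobenius.exists_liesOverPrime q ((c.aux Q hQ (Fin.last _)).prime q hqQ)
    obtain ⟨σ, hσ, hσc⟩ := Lowering.P6.exists_inertia_autToPow hV hz (cq (eQ i))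
    obtain ⟨hqp, hqQ'⟩ := Ctx.mem_natQ.1 hqQ
    refine ⟨σ, ⟨⟨q, hqp⟩, hqQ', V, hV, hσ⟩, fun j e => ?_⟩
    rw [chainAct_eq, map_sub (stepMap c Q hQ hnew j), map_ofNat,
      stepMap_same c Q hQ hnew j σ]
    refine inertia_mat_eq (c.aux Q hQ j) (ψ j) e (bs j e) (q := q) hqQ hV hσ (c := cq (eQ i))
      (fun x hx => ?_) (hψ i)
    obtain ⟨l, -, rfl⟩ := hz.eq_pow_of_pow_eq_one hx
    rw [map_pow, ← hz.autToPow_spec ℚ σ, hσc, ← pow_mul, ← pow_mul, mul_comm]
  choose σq hσqm hσqa using hσq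
  have hsame := stepMap_same c Q hQ hnew
  have hsurj := fun j => surjective_of_traces (c.aux Q hQ j) (stepMap c Q hQ hnew j)
    (chainRep c Q hQ) (hsame j)
  exact ⟨{
    L := levelRepOf (c.aux Q hQ (Fin.last _)) (c.setup_rb _) (level_conds c Q hQ)
    res := (c.aux Q hQ (Fin.last _)).resTR
    res_trace := fun σ => (chain_res_trace c Q hQ σ).trans
      (levelRepOf_trace (Aux.empty (c.setup (Fin.last _))) (c.setup_rb _)
        (c.level_conds_empty _) σ).symm
    Kr := fun j => RingHom.ker (stepMap c Q hQ hnew j)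
    Kr_anti := stepMap_ker_anti c Q hQ hnew
    Kr_last := stepMap_ker_last c Q hQ hnew
    Kr_ne := stepMap_ker_ne c Q hQ hnew
    K := fun j e => RingHom.ker (((c.aux Q hQ j).actTR e).comp (stepMap c Q hQ hnew j))
    Kr_le := ker_le_ker_act c Q hQ hnew
    Kr_inf := ker_act_inf_le c Q hQ hnew
    K_sat := ker_act_saturated c Q hQ hnew
    act := chainAct c Q hQ hnew ψ bs
    act_K := chainAct_eq_zero c Q hQ hnew ψ bs
    base := fun j e x => ⟨_, ⟨_, rfl⟩,
      chainAct_base c Q hQ hnew ψ bs (fun _ => hψaug) hbsco j e x⟩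
    base_last := chainAct_base_last c Q hQ hnew ψ bs (fun _ => hψaug) hbsco
    congr := chainAct_congr c Q hQ hnew ψ bs hbscg
    σq := σq
    σq_mem := hσqm
    σq_act := hσqa
    unramified := fun j l hlp hlQ hlj V hV σ hσ u v =>
      RingHom.mem_ker.2 ((hsame j).unramified l.2 hlp (not_dvd_aux_level c Q hQ hlQ hlj) hV hσ u v)
    unipotent := fun j l hl hlp hlj hlT V hV σ hσ =>
      ⟨RingHom.mem_ker.2 ((hsame j).unipotent hl hlp hlj hlT hV hσ).1,
        fun u v => RingHom.mem_ker.2 (((hsame j).unipotent hl hlp hlj hlT hV hσ).2 u v)⟩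
    untwisted := fun j t ht V hV σ hσ => RingHom.mem_ker.2 ((hsame j).untwisted ht hV hσ)
    twisted := fun j t ht V hV σ hσ u hu => RingHom.mem_ker.2 ((hsame j).twisted ht hV hσ u hu)
    ordinary := fun j hpj V hV σ hσ τ hτ u v => RingHom.mem_ker.2
      ((hsame j).ordinary hpj hV (c.exists_line (c.p_dvd_disc_lev hpj) hV) hσ hτ u v)
    flat := fun j hpj V hV => by
      obtain ⟨s, hs⟩ := (hsame j).flat hpj (hsurj j) hV
      refine ⟨s, fun m => ?_⟩
      obtain ⟨M, i1, i2, i3, actM, h1, h2, h3, h4, h5⟩ := hs m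
      exact ⟨M, i1, i2, i3, actM, h1, fun x hx => h2 x (RingHom.mem_ker.1 hx), h3, h4, h5⟩
    up := chainUp c Q hQ hnew ψ bs
    down := chainDown c Q hQ hnew ψ bs
    up_act := chainUp_act c Q hQ hnew ψ bs fun _ => rfl
    down_act := chainDown_act c Q hQ hnew ψ bs fun _ => rfl
    up_inj := fun j e v hv => step_up_inj _ (ψ j.castSucc) (bs j.castSucc)
      (upBasis c Q hQ bs j) hk e v hv
    down_surj := fun j e => step_down_surj _ (ψ j.castSucc) (bs j.castSucc)
      (upBasis c Q hQ bs j) e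
    comp := fun j e hq V hV φ hφ v b => chain_comp c Q hQ hnew ψ bs j e hq hV hφ v b
    old_range := fun j e hq V hV φ hφ v =>
      chain_old_range c Q hQ hnew ψ bs (fun _ => rfl) j e hq hV hφ v
    comp_p := fun j e hq V hV φ hφ z z' hzz hrel =>
      chain_comp_p c Q hQ hnew ψ bs (fun _ => rfl) j e hq hV hφ z z' hzz hrel }⟩

end FLTAgent.ModLift
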